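import Fermat.Agent.S56.H716.SBDefs

/-!
# Row S56 — SELBOUND, layer 2: FROZEN statements (deputy helper716)

`SELBOUND(cond)  ⇐  LOC(cond) + GW-WALL`,     `LOC(cond)  ⇐  LOC-MIN + LOC-P(cond)`
(glue: `H716/SBGlue.lean`, proved).

`M = ad⁰ρ̄`, `D_P` = decomposition group of the place `P`, `h⁰(D_P) = dim H⁰(D_P, M)`.

## Local leaves (elementary; one place at a time)

`LocalBoundAt ρbar P Ty d`: there is a `k`-space `Λ` of functions, `dim Λ ≤ h⁰(D_P) + d`, such that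
every ad⁰-cocycle `c` having a lift of local type `Ty` is, on `D_P`, cohomologous to an element of `Λ`.

* `LocMinStatement`   (LOC-MIN): `v ∈ Smin`, `v ≠ p`, type "unipotent on inertia at `v`": `d = 0`.
  (`ρ̄` is ramified at `v`, inertia image cyclic ⇒ class trivial on inertia ⇒ `H¹_ur`, `dim = h⁰`.)
* `LocOrdPStatement`  (LOC-SO): at `p`, type "strictly ordinary, det cyclotomic": `d = 1`.
  (quotient character rigid since `z² = 1`; classes come from `H¹(D_P, k(1))`, Kummer `dim = 2`.)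
* `LocFlatPStatement` (LOC-FLAT): at `p`, type "flat, det cyclotomic": `d = 1`.
  (ordinary case: connected–étale sequence; supersingular case: Fontaine's different bound.)

## The wall

* `GWWallStatement` (GW-WALL = Greenberg–Wiles/Poitou–Tate inequality, pure Galois cohomology of
  `M` and `M' = M(1)`; no deformation theory): for a suitable choice `Pl` of places over `Smin`,
  whenever spaces `Λ v` (`v ∈ Smin`) with `dim Λ v ≤ h⁰(D_{Pl v}) + δ v`, `∑ δ v ≤ 1` are given,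
  there is a dual Selmer frame `D` such that for every set `Q` of Taylor–Wiles primes killing `D`
  the Selmer cocycles of `(Λ, Q)` span, modulo coboundaries, a space of dimension `≤ #Q`.
  (Wiles' formula: `h¹_L(M) − h¹_{L^⊥}(M') = h⁰(M) − h⁰(M') + ∑_v (dim L_v − h⁰(D_v, M))`, with
  `h⁰(G_ℚ, M) = h⁰(G_ℚ, M') = 0`, the term `−1` at `∞` (`ρ̄` odd), `+1` at every `q ∈ Q`, `≤ δ v` at
  `v ∈ Smin`, `0` elsewhere; `D` = cocycle representatives of `H¹_{L^⊥}(G_ℚ, M')`.)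

Nothing unproved in this file.  Plan: `coord/S56-TB.md` on `origin/main`.
-/

set_option autoImplicit false

open Polynomial IsLocalRing

noncomputable section

namespace Fermat.Agent.S56.H716

open Fermat.Agent.S56

section

variable {k : Type} [Field k] (ρbar : ResidualGaloisRep k)

/-- The numerical hypotheses on the local spaces `Λ v`, `v ∈ Smin`:
`dim Λ v ≤ h⁰(D_{Pl v}, ad⁰ρ̄) + δ v` and `∑_{v ∈ Smin} δ v ≤ 1`. -/
def LocBounds (Pl : ℕ → ValuationSubring Qb)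
    (Λ : ℕ → Submodule k (GQ → Module.End k ρbar.V)) (δ : ℕ → ℕ) (Smin : Finset ℕ) : Prop :=
  (∀ v ∈ Smin, Module.Finite k (Λ v) ∧
    Module.finrank k (Λ v) ≤
      Module.finrank k (adInv ρbar ((Pl v).decompositionSubgroup ℚ)) + δ v) ∧
  ∑ v ∈ Smin, δ v ≤ 1

/-- Local tangent bound at the place `P` for the local lifting type `Ty`, with defect `d`. -/
def LocalBoundAt (P : ValuationSubring Qb) (Ty : GaloisRepAdic (DualNumber k) → Prop)
    (d : ℕ) : Prop :=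
  ∃ Λ : Submodule k (GQ → Module.End k ρbar.V), Module.Finite k Λ ∧
    Module.finrank k Λ ≤ Module.finrank k (adInv ρbar (P.decompositionSubgroup ℚ)) + d ∧
    ∀ c : GQ → Module.End k ρbar.V, IsAdCocycle ρbar c →
      (∃ ρ' : GaloisRepAdic (DualNumber k), IsLiftOf ρbar c ρ' ∧ Ty ρ') →
      ∃ t ∈ Λ, IsAdCoboundaryOn ρbar (P.decompositionSubgroup ℚ) (c - t)

end

section

variable (𝒪 : Type) [CommRing 𝒪] [IsDomain 𝒪] [IsDiscreteValuationRing 𝒪]
  [IsAdicComplete (maximalIdeal 𝒪) 𝒪]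
  (p : ℕ) (ρbar : ResidualGaloisRep (ResidueField 𝒪)) (S Smin : Finset ℕ)

/-- (LOC) for a family of conditions indexed by the auxiliary set `Q`: for every choice of places
over `Smin` there are local spaces with the right dimensions which capture the tangent cocycles. -/
def Loc (cond : Finset ℕ → DefCond 𝒪) : Prop :=
  ∀ Pl : ℕ → ValuationSubring Qb, (∀ v ∈ Smin, (Pl v).LiesOverPrime v) →
    ∃ (Λ : ℕ → Submodule (ResidueField 𝒪) (GQ → Module.End (ResidueField 𝒪) ρbar.V))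
      (δ : ℕ → ℕ), LocBounds ρbar Pl Λ δ Smin ∧
      ∀ Q : Finset ℕ, (∀ q ∈ Q, IsTWPrime ρbar p S q) →
        ∀ c, IsTanCocycle 𝒪 ρbar (cond Q) c → IsSelCocycle ρbar Pl Λ Smin Q c

/-- (GW-WALL) for one residual representation. -/
def GWWall : Prop :=
  ∃ Pl : ℕ → ValuationSubring Qb, (∀ v ∈ Smin, (Pl v).LiesOverPrime v) ∧
    ∀ (Λ : ℕ → Submodule (ResidueField 𝒪) (GQ → Module.End (ResidueField 𝒪) ρbar.V))
      (δ : ℕ → ℕ), LocBounds ρbar Pl Λ δ Smin →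
      ∃ D : Submodule (ResidueField 𝒪) (GQ → Module.End (ResidueField 𝒪) ρbar.V),
        IsDualFrame ρbar p D ∧
        ∀ Q : Finset ℕ, (∀ q ∈ Q, IsTWPrime ρbar p S q) → Kills ρbar p D Q →
          ∃ T : Submodule (ResidueField 𝒪) (GQ → Module.End (ResidueField 𝒪) ρbar.V),
            Module.Finite (ResidueField 𝒪) T ∧
            Module.finrank (ResidueField 𝒪) T ≤ Q.card ∧
            ∀ c, IsSelCocycle ρbar Pl Λ Smin Q c → ∃ t ∈ T, IsAdCoboundary ρbar (c - t)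

end

/-- (LOC-ord). -/
def LocOrdStatement : Prop :=
  ∀ (𝒪 : Type) [CommRing 𝒪] [IsDomain 𝒪] [IsDiscreteValuationRing 𝒪]
    [IsAdicComplete (maximalIdeal 𝒪) 𝒪] [Finite (ResidueField 𝒪)]
    (p : ℕ) (ρbar : ResidualGaloisRep (ResidueField 𝒪)) (S Smin : Finset ℕ),
    Hyp 𝒪 p ρbar S Smin → Loc 𝒪 p ρbar S Smin (ordCond 𝒪 p Smin)

/-- (LOC-flat). -/
def LocFlatStatement : Prop :=
  ∀ (𝒪 : Type) [CommRing 𝒪] [IsDomain 𝒪] [IsDiscreteValuationRing 𝒪]
    [IsAdicComplete (maximalIdeal 𝒪) 𝒪] [Finite (ResidueField 𝒪)]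
    (p : ℕ) (ρbar : ResidualGaloisRep (ResidueField 𝒪)) (S Smin : Finset ℕ),
    Hyp 𝒪 p ρbar S Smin → Loc 𝒪 p ρbar S Smin (flatCond 𝒪 p Smin)

/-- (GW-WALL): the Greenberg–Wiles inequality for `ad⁰ρ̄`. -/
def GWWallStatement : Prop :=
  ∀ (𝒪 : Type) [CommRing 𝒪] [IsDomain 𝒪] [IsDiscreteValuationRing 𝒪]
    [IsAdicComplete (maximalIdeal 𝒪) 𝒪] [Finite (ResidueField 𝒪)]
    (p : ℕ) (ρbar : ResidualGaloisRep (ResidueField 𝒪)) (S Smin : Finset ℕ),
    Hyp 𝒪 p ρbar S Smin → GWWall 𝒪 p ρbar S Smin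

/-- (LOC-MIN): at `v ∈ Smin`, `v ≠ p`, unipotent-on-inertia lifts have classes in a space of
dimension `≤ h⁰(D_P, ad⁰ρ̄)`. -/
def LocMinStatement : Prop :=
  ∀ (𝒪 : Type) [CommRing 𝒪] [IsDomain 𝒪] [IsDiscreteValuationRing 𝒪]
    [IsAdicComplete (maximalIdeal 𝒪) 𝒪] [Finite (ResidueField 𝒪)]
    (p : ℕ) (ρbar : ResidualGaloisRep (ResidueField 𝒪)) (S Smin : Finset ℕ),
    Hyp 𝒪 p ρbar S Smin → ∀ v ∈ Smin, v ≠ p →
      ∀ P : ValuationSubring Qb, P.LiesOverPrime v →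
        LocalBoundAt ρbar P (fun ρ' => ρ'.DetIsCyclotomic p ∧ ρ'.IsUnipotentOnInertiaAt v) 0

/-- (LOC-SO): at `p`, strictly ordinary lifts with cyclotomic determinant have classes in a space
of dimension `≤ h⁰(D_P, ad⁰ρ̄) + 1`. -/
def LocOrdPStatement : Prop :=
  ∀ (𝒪 : Type) [CommRing 𝒪] [IsDomain 𝒪] [IsDiscreteValuationRing 𝒪]
    [IsAdicComplete (maximalIdeal 𝒪) 𝒪] [Finite (ResidueField 𝒪)]
    (p : ℕ) (ρbar : ResidualGaloisRep (ResidueField 𝒪)) (S Smin : Finset ℕ),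
    Hyp 𝒪 p ρbar S Smin →
      ∀ P : ValuationSubring Qb, P.LiesOverPrime p →
        LocalBoundAt ρbar P (fun ρ' => ρ'.DetIsCyclotomic p ∧ ρ'.IsStrictOrdinaryAt p) 1

/-- (LOC-FLAT): at `p`, flat lifts with cyclotomic determinant have classes in a space of
dimension `≤ h⁰(D_P, ad⁰ρ̄) + 1`. -/
def LocFlatPStatement : Prop :=
  ∀ (𝒪 : Type) [CommRing 𝒪] [IsDomain 𝒪] [IsDiscreteValuationRing 𝒪]
    [IsAdicComplete (maximalIdeal 𝒪) 𝒪] [Finite (ResidueField 𝒪)]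
    (p : ℕ) (ρbar : ResidualGaloisRep (ResidueField 𝒪)) (S Smin : Finset ℕ),
    Hyp 𝒪 p ρbar S Smin →
      ∀ P : ValuationSubring Qb, P.LiesOverPrime p →
        LocalBoundAt ρbar P (fun ρ' => ρ'.DetIsCyclotomic p ∧ ρ'.IsFlatAt p) 1

end Fermat.Agent.S56.H716

end
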