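import Fermat.Agent.S56.H716.SBSpec

/-!
# Row S56 — the wall GW-WALL, layer 3: FROZEN statements (deputy helper716)

`GW-WALL  ⇐  BASE + REC-Q`      (glue: `H716/GWGlue.lean`)

`M = ad⁰ρ̄`, `M' = M(1)`; plain-function language of layers 0–2.  For a choice `Pl` of places over
`Smin`, the STRICT Selmer cocycles of `Q` are the ad⁰-cocycles which are unramified outside
`Smin ∪ Q` and coboundaries on `D_{Pl v}` for every `v ∈ Smin`
(`IsSelCocycle ρbar Pl (fun _ => ⊥) Smin Q c`).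

* `BaseStatement` (BASE = Tate's global Euler characteristic + frozen S55 + the tail of the
  Poitou–Tate sequence): there are a dual frame `D`, all of whose elements are unramified outside
  `Smin`, and a finite-dimensional space `X` representing all strict Selmer classes of `Q = ∅`
  (`= Ш¹_Smin(M)`), with

      `dim X + ∑_{v ∈ Smin} h⁰(D_{Pl v}, M) + 1 ≤ dim D`.

  (True with equality for `D` = representatives of ALL of `H¹(G_{ℚ,Smin}, M')`:
  `h¹(M') = h²(M') − χ(M')`, `χ(M') = h⁰(G_ℝ, M') − dim M' = −1`,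
  `h²(M') = dim Ш²(M') + ∑_v h²(G_v, M') − h⁰(G_ℚ, M)`, `Ш²(M') ≅ Ш¹(M)^∨`.)
* `RecQStatement` (REC-Q = reciprocity over `Q` + tame local duality at Taylor–Wiles primes):
  for EVERY dual frame `D` unramified outside `Smin` and every set `Q` of Taylor–Wiles primes
  killing `D`, the strict Selmer classes of `Q` modulo those of `∅` have dimension `≤ #Q − dim D`.

Nothing unproved in this file.  Plan: `coord/S56-TB.md` on `origin/main`.
-/

set_option autoImplicit false

open Polynomial IsLocalRing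

noncomputable section

namespace Fermat.Agent.S56.H716

open Fermat.Agent.S56

section

variable (𝒪 : Type) [CommRing 𝒪] [IsDomain 𝒪] [IsDiscreteValuationRing 𝒪]
  (p : ℕ) (ρbar : ResidualGaloisRep (ResidueField 𝒪)) (S Smin : Finset ℕ)

/-- (BASE) for one residual representation. -/
def Base : Prop :=
  ∃ Pl : ℕ → ValuationSubring Qb, (∀ v ∈ Smin, (Pl v).LiesOverPrime v) ∧
    ∃ D X : Submodule (ResidueField 𝒪) (GQ → Module.End (ResidueField 𝒪) ρbar.V),
      IsDualFrame ρbar p D ∧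
      (∀ y ∈ D, ∀ q : ℕ, q.Prime → q ∉ Smin → UnramAt ρbar y q) ∧
      Module.Finite (ResidueField 𝒪) X ∧
      (∀ c, IsSelCocycle ρbar Pl (fun _ => ⊥) Smin ∅ c → ∃ t ∈ X, IsAdCoboundary ρbar (c - t)) ∧
      Module.finrank (ResidueField 𝒪) X +
          ∑ v ∈ Smin, Module.finrank (ResidueField 𝒪)
            (adInv ρbar ((Pl v).decompositionSubgroup ℚ)) + 1
        ≤ Module.finrank (ResidueField 𝒪) D

/-- (REC-Q) for one residual representation. -/
def RecQ : Prop :=
  ∀ Pl : ℕ → ValuationSubring Qb, (∀ v ∈ Smin, (Pl v).LiesOverPrime v) →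
    ∀ D : Submodule (ResidueField 𝒪) (GQ → Module.End (ResidueField 𝒪) ρbar.V),
      IsDualFrame ρbar p D →
      (∀ y ∈ D, ∀ q : ℕ, q.Prime → q ∉ Smin → UnramAt ρbar y q) →
      ∀ Q : Finset ℕ, (∀ q ∈ Q, IsTWPrime ρbar p S q) → Kills ρbar p D Q →
        ∃ U : Submodule (ResidueField 𝒪) (GQ → Module.End (ResidueField 𝒪) ρbar.V),
          Module.Finite (ResidueField 𝒪) U ∧
          Module.finrank (ResidueField 𝒪) U + Module.finrank (ResidueField 𝒪) D ≤ Q.card ∧
          ∀ c, IsSelCocycle ρbar Pl (fun _ => ⊥) Smin Q c →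
            ∃ u ∈ U, ∃ c', IsSelCocycle ρbar Pl (fun _ => ⊥) Smin ∅ c' ∧
              IsAdCoboundary ρbar (c - u - c')

end

/-- (BASE): lower bound for `h¹(G_{ℚ,Smin}, ad⁰ρ̄(1))`. -/
def BaseStatement : Prop :=
  ∀ (𝒪 : Type) [CommRing 𝒪] [IsDomain 𝒪] [IsDiscreteValuationRing 𝒪]
    [IsAdicComplete (maximalIdeal 𝒪) 𝒪] [Finite (ResidueField 𝒪)]
    (p : ℕ) (ρbar : ResidualGaloisRep (ResidueField 𝒪)) (S Smin : Finset ℕ),
    Hyp 𝒪 p ρbar S Smin → Base 𝒪 p ρbar Smin

/-- (REC-Q): reciprocity over the Taylor–Wiles primes. -/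
def RecQStatement : Prop :=
  ∀ (𝒪 : Type) [CommRing 𝒪] [IsDomain 𝒪] [IsDiscreteValuationRing 𝒪]
    [IsAdicComplete (maximalIdeal 𝒪) 𝒪] [Finite (ResidueField 𝒪)]
    (p : ℕ) (ρbar : ResidualGaloisRep (ResidueField 𝒪)) (S Smin : Finset ℕ),
    Hyp 𝒪 p ρbar S Smin → RecQ 𝒪 p ρbar S Smin

end Fermat.Agent.S56.H716

end
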