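import Fermat.Agent.S56.H716.GWGlue

/-!
# Row S56 — the wall GW-WALL, layer 3b: BASE over a bigger set (deputy helper716)

`BASE  ⇐  BASE-BIG + COMP`       (optional route to `BaseStatement`)

Tate's Euler characteristic is easier to prove for a LARGE set `S'` of primes (class groups and
`Ш²(Ind μ)` can be killed).  `BaseBigStatement` is `BaseStatement` with `Smin` replaced by some
finite set `S' ⊇ Smin` of primes, chosen by the prover:

* `BaseBigStatement` (BASE-BIG): there are `S' ⊇ Smin`, places `Pl` over `S'`, a dual frame `D'`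
  unramified outside `S'` and a finite-dimensional space `X'` representing the strict Selmer classes
  of `(S', ∅)` (`= Ш¹_{S'}(M)`), with `dim X' + ∑_{v ∈ S'} h⁰(D_{Pl v}, M) + 1 ≤ dim D'`.
* `CompStatement` (COMP): BASE-BIG ⇒ BASE.  Proof: `D := {y ∈ D' : y unramified at S' ∖ Smin}`,
  `X :=` representatives of `Ш¹_Smin(M)`;  `r : D' → R' := ⊕_{v ∈ S'∖Smin} H¹(G_v,M')/H¹_ur`,
  `s : Ш¹_Smin(M) → R := ⊕_{v ∈ S'∖Smin} H¹_ur(G_v,M)`, `ker r = D`, `ker s = Ш¹_{S'}(M)`;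
  reciprocity (`x` is trivial at `Smin`, both unramified outside `S'`) gives `r(D') ⊥ s(Ш¹_Smin)`;
  tame duality at the unramified primes `v ∈ S'∖Smin` (`R → R'^∨` injective, `dim R' ≤ ∑ h⁰`)
  gives `dim r(D') + dim s(Ш¹_Smin) ≤ ∑_{v ∈ S'∖Smin} h⁰(G_v, M)`, whence the inequality.

Nothing unproved in this file.
-/

set_option autoImplicit false

open Polynomial IsLocalRing

noncomputable section

namespace Fermat.Agent.S56.H716

open Fermat.Agent.S56

/-- (BASE-BIG) for one residual representation: (BASE) for some finite set of primes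
`S' ⊇ Smin`. -/
def BaseBig (𝒪 : Type) [CommRing 𝒪] [IsDomain 𝒪] [IsDiscreteValuationRing 𝒪]
    (p : ℕ) (ρbar : ResidualGaloisRep (ResidueField 𝒪)) (Smin : Finset ℕ) : Prop :=
  ∃ S' : Finset ℕ, Smin ⊆ S' ∧ (∀ q ∈ S', q.Prime) ∧ Base 𝒪 p ρbar S'

/-- (BASE-BIG). -/
def BaseBigStatement : Prop :=
  ∀ (𝒪 : Type) [CommRing 𝒪] [IsDomain 𝒪] [IsDiscreteValuationRing 𝒪]
    [IsAdicComplete (maximalIdeal 𝒪) 𝒪] [Finite (ResidueField 𝒪)]
    (p : ℕ) (ρbar : ResidualGaloisRep (ResidueField 𝒪)) (S Smin : Finset ℕ),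
    Hyp 𝒪 p ρbar S Smin → BaseBig 𝒪 p ρbar Smin

/-- (COMP): from a big set `S'` down to `Smin`. -/
def CompStatement : Prop :=
  ∀ (𝒪 : Type) [CommRing 𝒪] [IsDomain 𝒪] [IsDiscreteValuationRing 𝒪]
    [IsAdicComplete (maximalIdeal 𝒪) 𝒪] [Finite (ResidueField 𝒪)]
    (p : ℕ) (ρbar : ResidualGaloisRep (ResidueField 𝒪)) (S Smin : Finset ℕ),
    Hyp 𝒪 p ρbar S Smin → BaseBig 𝒪 p ρbar Smin → Base 𝒪 p ρbar Smin

/-- (BASE) from (BASE-BIG) and (COMP). -/
theorem base_of_baseBig (hc : CompStatement) (hb : BaseBigStatement) : BaseStatement :=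
  fun 𝒪 _ _ _ _ _ p ρbar S Smin hyp => hc 𝒪 p ρbar S Smin hyp (hb 𝒪 p ρbar S Smin hyp)

end Fermat.Agent.S56.H716

end
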