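import Fermat.Agent.S56.H716.TBSpec

/-!
# Row S56 — SELBOUND, layer 2: FROZEN definitions (deputy helper716)

Plain-function language of layers 0 and 1 (`c : G_ℚ → End_k V`, `V = ρbar.V`).

* `IsAdCoboundaryOn ρbar H c` — `c` is an (untwisted) coboundary on the subgroup `H ≤ G_ℚ`.
* `adInv ρbar H`              — `H⁰(H, ad⁰ρ̄)`: trace-zero endomorphisms commuting with `ρ̄(H)`.
* `UnramAt c q`               — `c` vanishes on every inertia group above `q`.
* `IsSelCocycle ρbar Pl Λ Smin Q c` — `c ∈ Z¹(G_ℚ, ad⁰ρ̄)` (finite level), unramified outside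
  `Smin ∪ Q`, and for every `v ∈ Smin` the restriction of `c` to the decomposition group of the
  chosen place `Pl v` above `v` is cohomologous to (the restriction of) an element of `Λ v`.
  ("Selmer cocycles" for the local conditions `L_v = image of Λ v in H¹(D_{Pl v}, ad⁰ρ̄)`.)

Nothing unproved in this file.  Plan: `coord/S56-TB.md` on `origin/main`.
-/

set_option autoImplicit false

open Polynomial IsLocalRing

noncomputable section

namespace Fermat.Agent.S56.H716

open Fermat.Agent.S56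

section

variable {k : Type} [Field k] (ρbar : ResidualGaloisRep k)

/-- `c` is an (untwisted) coboundary on the subgroup `H`. -/
def IsAdCoboundaryOn (H : Subgroup GQ) (c : GQ → Module.End k ρbar.V) : Prop :=
  ∃ m : Module.End k ρbar.V, ∀ σ ∈ H, c σ = ρbar.ρ σ * m * ρbar.ρ σ⁻¹ - m

/-- `H⁰(H, ad⁰ρ̄)`: the trace-zero endomorphisms fixed by the adjoint action of `H`. -/
def adInv (H : Subgroup GQ) : Submodule k (Module.End k ρbar.V) where
  carrier := {m | LinearMap.trace k ρbar.V m = 0 ∧ ∀ σ ∈ H, ρbar.ρ σ * m * ρbar.ρ σ⁻¹ = m}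
  add_mem' := by
    rintro a b ⟨ha, ha'⟩ ⟨hb, hb'⟩
    refine ⟨by rw [map_add, ha, hb, add_zero], fun σ hσ => ?_⟩
    rw [mul_add, add_mul, ha' σ hσ, hb' σ hσ]
  zero_mem' := ⟨map_zero _, fun σ _ => by rw [mul_zero, zero_mul]⟩
  smul_mem' := by
    rintro r a ⟨ha, ha'⟩
    refine ⟨by rw [map_smul, ha, smul_zero], fun σ hσ => ?_⟩
    rw [mul_smul_comm, smul_mul_assoc, ha' σ hσ]

/-- `c` vanishes on every inertia group above the prime `q`. -/
def UnramAt (c : GQ → Module.End k ρbar.V) (q : ℕ) : Prop :=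
  ∀ P : ValuationSubring Qb, P.LiesOverPrime q → ∀ σ ∈ P.inertiaSubgroupIn ℚ, c σ = 0

/-- Selmer cocycles for the local conditions cut out by the spaces `Λ v` (`v ∈ Smin`) at the
places `Pl v`, with no condition at `Q` and the unramified condition elsewhere. -/
structure IsSelCocycle (Pl : ℕ → ValuationSubring Qb)
    (Λ : ℕ → Submodule k (GQ → Module.End k ρbar.V)) (Smin Q : Finset ℕ)
    (c : GQ → Module.End k ρbar.V) : Prop where
  cocycle : IsAdCocycle ρbar c
  unram : ∀ q : ℕ, q.Prime → q ∉ Smin ∪ Q → UnramAt ρbar c q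
  loc : ∀ v ∈ Smin, ∃ t ∈ Λ v, IsAdCoboundaryOn ρbar ((Pl v).decompositionSubgroup ℚ) (c - t)

end

end Fermat.Agent.S56.H716

end
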