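import Fermat.Agent.S56.H716.GWSpec2

/-!
# Row S56 — the wall GW-WALL, layer 3c: the route through a bigger set `S'` (deputy helper716)

`GW-WALL  ⇐  BASE-BIG + REC-Q-BIG + UR-COUNT + TW-INV`      (glue: `H716/GWGlue3.lean`)

This route needs NO comparison step (COMP) and NO tame duality at general unramified primes:
the Euler characteristic may be proved for a set `S' ⊇ Smin` chosen by the prover, and reciprocity
is used only over the Taylor–Wiles primes.

* `UrCountStatement` (UR-COUNT): `v ∉ Smin` prime (so `ρ̄` is unramified at `v`), `P ∣ v`: the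
  classes on `D_P` of ad⁰-cocycles vanishing on inertia at `v` span a space of dimension
  `≤ h⁰(D_P, M)`  (`H¹_ur = M/(φ − 1)M`).
* `TWInvStatement` (TW-INV): `h⁰(D_P, M) ≥ 1` at a Taylor–Wiles prime (`ρ̄(φ) − tr/2`).
* `RecQBigStatement` (REC-Q-BIG): like `RecQStatement`, for every finite set of primes
  `S' ⊇ Smin`; the Taylor–Wiles set `Q` may meet `S' ∖ Smin`.  Strict Selmer cocycles of `Q`:
  coboundaries on `D_{Pl v}` for `v ∈ S' ∖ Q`, unramified outside `S' ∪ Q`.  Bound: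
  `dim U + dim D ≤ #Q + #(Q ∩ S')`
  (`X_q = H¹/H¹_ur` is a line for `q ∈ Q ∖ S'`, `X_q = H¹(D_q, M)` a plane for `q ∈ Q ∩ S'`).
  For `S' = Smin` this is `RecQStatement`.

Nothing unproved in this file.
-/

set_option autoImplicit false

open Polynomial IsLocalRing

noncomputable section

namespace Fermat.Agent.S56.H716

open Fermat.Agent.S56

section

variable (𝒪 : Type) [CommRing 𝒪] [IsDomain 𝒪] [IsDiscreteValuationRing 𝒪]
  (p : ℕ) (ρbar : ResidualGaloisRep (ResidueField 𝒪)) (S Smin : Finset ℕ)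

/-- (REC-Q-BIG) for one residual representation. -/
def RecQBig : Prop :=
  ∀ S' : Finset ℕ, Smin ⊆ S' → (∀ q ∈ S', q.Prime) →
    ∀ Pl : ℕ → ValuationSubring Qb, (∀ v ∈ S', (Pl v).LiesOverPrime v) →
    ∀ D : Submodule (ResidueField 𝒪) (GQ → Module.End (ResidueField 𝒪) ρbar.V),
      IsDualFrame ρbar p D →
      (∀ y ∈ D, ∀ q : ℕ, q.Prime → q ∉ S' → UnramAt ρbar y q) →
      ∀ Q : Finset ℕ, (∀ q ∈ Q, IsTWPrime ρbar p S q) → Kills ρbar p D Q →
        ∃ U : Submodule (ResidueField 𝒪) (GQ → Module.End (ResidueField 𝒪) ρbar.V),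
          Module.Finite (ResidueField 𝒪) U ∧
          Module.finrank (ResidueField 𝒪) U + Module.finrank (ResidueField 𝒪) D
            ≤ Q.card + (Q ∩ S').card ∧
          ∀ c, IsSelCocycle ρbar Pl (fun _ => ⊥) (S' \ Q) Q c →
            ∃ u ∈ U, ∃ c', IsSelCocycle ρbar Pl (fun _ => ⊥) S' ∅ c' ∧
              IsAdCoboundary ρbar (c - u - c')

end

/-- (REC-Q-BIG): reciprocity over the Taylor–Wiles primes, relative to a big set `S'`. -/
def RecQBigStatement : Prop :=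
  ∀ (𝒪 : Type) [CommRing 𝒪] [IsDomain 𝒪] [IsDiscreteValuationRing 𝒪]
    [IsAdicComplete (maximalIdeal 𝒪) 𝒪] [Finite (ResidueField 𝒪)]
    (p : ℕ) (ρbar : ResidualGaloisRep (ResidueField 𝒪)) (S Smin : Finset ℕ),
    Hyp 𝒪 p ρbar S Smin → RecQBig 𝒪 p ρbar S Smin

/-- (UR-COUNT): `dim H¹_ur(D_P, ad⁰ρ̄) ≤ h⁰(D_P, ad⁰ρ̄)` at the primes outside `Smin`. -/
def UrCountStatement : Prop :=
  ∀ (𝒪 : Type) [CommRing 𝒪] [IsDomain 𝒪] [IsDiscreteValuationRing 𝒪]
    [IsAdicComplete (maximalIdeal 𝒪) 𝒪] [Finite (ResidueField 𝒪)]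
    (p : ℕ) (ρbar : ResidualGaloisRep (ResidueField 𝒪)) (S Smin : Finset ℕ),
    Hyp 𝒪 p ρbar S Smin → ∀ v : ℕ, v.Prime → v ∉ Smin →
      ∀ P : ValuationSubring Qb, P.LiesOverPrime v →
        ∃ Λ : Submodule (ResidueField 𝒪) (GQ → Module.End (ResidueField 𝒪) ρbar.V),
          Module.Finite (ResidueField 𝒪) Λ ∧
          Module.finrank (ResidueField 𝒪) Λ ≤
            Module.finrank (ResidueField 𝒪) (adInv ρbar (P.decompositionSubgroup ℚ)) ∧
          ∀ c, IsAdCocycle ρbar c → UnramAt ρbar c v →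
            ∃ t ∈ Λ, IsAdCoboundaryOn ρbar (P.decompositionSubgroup ℚ) (c - t)

/-- (TW-INV): `h⁰(D_P, ad⁰ρ̄) ≥ 1` at a Taylor–Wiles prime. -/
def TWInvStatement : Prop :=
  ∀ (𝒪 : Type) [CommRing 𝒪] [IsDomain 𝒪] [IsDiscreteValuationRing 𝒪]
    [IsAdicComplete (maximalIdeal 𝒪) 𝒪] [Finite (ResidueField 𝒪)]
    (p : ℕ) (ρbar : ResidualGaloisRep (ResidueField 𝒪)) (S Smin : Finset ℕ),
    Hyp 𝒪 p ρbar S Smin → ∀ q : ℕ, IsTWPrime ρbar p S q →
      ∀ P : ValuationSubring Qb, P.LiesOverPrime q →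
        1 ≤ Module.finrank (ResidueField 𝒪) (adInv ρbar (P.decompositionSubgroup ℚ))

end Fermat.Agent.S56.H716

end
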