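import Fermat.Agent.S56.H716.GWSpec3

/-!
# Row S56 — the wall GW-WALL, layer 3c: glue for the route through a bigger set (deputy helper716)

* `gwWall_of_big : BaseBigStatement → RecQBigStatement → UrCountStatement → TWInvStatement →
    GWWallStatement`
* `recQ_of_recQBig : RecQBigStatement → RecQStatement`
* `tangentBoundOrd_of_big`, `tangentBoundFlat_of_big`.
-/

set_option autoImplicit false

open Polynomial IsLocalRing

noncomputable section

namespace Fermat.Agent.S56.H716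

open Fermat.Agent.S56

section

variable (𝒪 : Type) [CommRing 𝒪] [IsDomain 𝒪] [IsDiscreteValuationRing 𝒪]
  (p : ℕ) (ρbar : ResidualGaloisRep (ResidueField 𝒪)) (S Smin : Finset ℕ)

/-- **Glue** `GW-WALL ⇐ BASE-BIG + REC-Q-BIG + UR-COUNT + TW-INV` for one representation. -/
theorem gwWall_of_baseBig_recQBig (hSmin : Smin ⊆ S)
    (hb : BaseBig 𝒪 p ρbar Smin) (hr : RecQBig 𝒪 p ρbar S Smin)
    (hur : ∀ v : ℕ, v.Prime → v ∉ Smin → ∀ P : ValuationSubring Qb, P.LiesOverPrime v →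
      ∃ Λ : Submodule (ResidueField 𝒪) (GQ → Module.End (ResidueField 𝒪) ρbar.V),
        Module.Finite (ResidueField 𝒪) Λ ∧
        Module.finrank (ResidueField 𝒪) Λ ≤
          Module.finrank (ResidueField 𝒪) (adInv ρbar (P.decompositionSubgroup ℚ)) ∧
        ∀ c, IsAdCocycle ρbar c → UnramAt ρbar c v →
          ∃ t ∈ Λ, IsAdCoboundaryOn ρbar (P.decompositionSubgroup ℚ) (c - t))
    (htw : ∀ q : ℕ, IsTWPrime ρbar p S q → ∀ P : ValuationSubring Qb, P.LiesOverPrime q →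
      1 ≤ Module.finrank (ResidueField 𝒪) (adInv ρbar (P.decompositionSubgroup ℚ))) :
    GWWall 𝒪 p ρbar S Smin := by
  classical
  obtain ⟨S', hSS', hS'prime, Pl, hPl, D, X, hD, hDur, hXfin, hX, hdim⟩ := hb
  refine ⟨Pl, fun v hv => hPl v (hSS' hv), fun Λ δ hΛ => ⟨D, hD, fun Q hQ hK => ?_⟩⟩
  obtain ⟨U, hUfin, hUdim, hU⟩ := hr S' hSS' hS'prime Pl hPl D hD hDur Q hQ hK
  have hQS : ∀ q ∈ Q, q ∉ Smin := fun q hq h => (hQ q hq).2.1 (hSmin h)
  -- the local spaces on `S' \ Q`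
  let Λ' : ℕ → Submodule (ResidueField 𝒪) (GQ → Module.End (ResidueField 𝒪) ρbar.V) :=
    fun v => if h : v ∈ Smin then Λ v else
      if h' : v ∈ S' then (hur v (hS'prime v h') h (Pl v) (hPl v h')).choose else ⊥
  have hΛ'1 : ∀ v, v ∈ Smin → Λ' v = Λ v := fun v h => dif_pos h
  have hΛ'2 : ∀ v (h : v ∉ Smin) (h' : v ∈ S'),
      Λ' v = (hur v (hS'prime v h') h (Pl v) (hPl v h')).choose := fun v h h' => by
    simp only [Λ', dif_neg h, dif_pos h']
  let h0 : ℕ → ℕ := fun v =>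
    Module.finrank (ResidueField 𝒪) (adInv ρbar ((Pl v).decompositionSubgroup ℚ))
  let dd : ℕ → ℕ := fun v => if v ∈ Smin then δ v else 0
  have hfin' : ∀ v ∈ S' \ Q, Module.Finite (ResidueField 𝒪) (Λ' v) := by
    intro v hv
    by_cases h : v ∈ Smin
    · rw [hΛ'1 v h]
      exact (hΛ.1 v h).1
    · have hvS' : v ∈ S' := (Finset.mem_sdiff.1 hv).1
      rw [hΛ'2 v h hvS']
      exact (hur v (hS'prime v hvS') h (Pl v) (hPl v hvS')).choose_spec.1
  have hbound' : ∀ v ∈ S' \ Q, Module.finrank (ResidueField 𝒪) (Λ' v) ≤ h0 v + dd v := by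
    intro v hv
    by_cases h : v ∈ Smin
    · rw [hΛ'1 v h]
      simpa [dd, h0, h] using (hΛ.1 v h).2
    · have hvS' : v ∈ S' := (Finset.mem_sdiff.1 hv).1
      rw [hΛ'2 v h hvS']
      simpa [dd, h0, h] using
        (hur v (hS'prime v hvS') h (Pl v) (hPl v hvS')).choose_spec.2.1
  have hsel' : ∀ c, IsSelCocycle ρbar Pl Λ Smin Q c → IsSelCocycle ρbar Pl Λ' (S' \ Q) Q c := by
    intro c hc
    refine ⟨hc.cocycle, fun q hq hqn => hc.unram q hq fun hq' => hqn ?_, fun v hv => ?_⟩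
    · rcases Finset.mem_union.1 hq' with h | h
      · exact Finset.mem_union_left _ (Finset.mem_sdiff.2 ⟨hSS' h, fun hQ' => hQS q hQ' h⟩)
      · exact Finset.mem_union_right _ h
    · obtain ⟨hvS', hvQ⟩ := Finset.mem_sdiff.1 hv
      by_cases h : v ∈ Smin
      · rw [hΛ'1 v h]
        exact hc.loc v h
      · rw [hΛ'2 v h hvS']
        refine (hur v (hS'prime v hvS') h (Pl v) (hPl v hvS')).choose_spec.2.2 c hc.cocycle
          (hc.unram v (hS'prime v hvS') fun hv' => ?_)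
        rcases Finset.mem_union.1 hv' with h1 | h1
        · exact h h1
        · exact hvQ h1
  obtain ⟨W, hWfin, hWdim, hW⟩ := exists_local_lift ρbar Pl Λ' (S' \ Q) Q hfin'
  have := hXfin
  have := hUfin
  have := hWfin
  refine ⟨W ⊔ U ⊔ X, inferInstance, ?_, fun c hc => ?_⟩
  · have h1 : Module.finrank (ResidueField 𝒪) ↥(W ⊔ U ⊔ X) ≤
        Module.finrank (ResidueField 𝒪) W + Module.finrank (ResidueField 𝒪) U +
          Module.finrank (ResidueField 𝒪) X :=
      (Submodule.finrank_add_le_finrank_add_finrank (W ⊔ U) X).trans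
        (Nat.add_le_add_right (Submodule.finrank_add_le_finrank_add_finrank W U) _)
    have h2 : ∑ v ∈ S' \ Q, Module.finrank (ResidueField 𝒪) (Λ' v) ≤
        ∑ v ∈ S' \ Q, h0 v + ∑ v ∈ S' \ Q, dd v := by
      rw [← Finset.sum_add_distrib]
      exact Finset.sum_le_sum hbound'
    have hsub : Smin ⊆ S' \ Q := fun v hv =>
      Finset.mem_sdiff.2 ⟨hSS' hv, fun hQ' => hQS v hQ' hv⟩
    have h3 : ∑ v ∈ S' \ Q, dd v = ∑ v ∈ Smin, δ v := by
      rw [← Finset.sum_subset hsub (f := dd) fun v _ hv => by simp [dd, hv]]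
      exact Finset.sum_congr rfl fun v hv => by simp [dd, hv]
    have h4 : ∑ v ∈ S' \ Q, h0 v + ∑ v ∈ S' ∩ Q, h0 v = ∑ v ∈ S', h0 v := by
      rw [← Finset.sum_sdiff (Finset.inter_subset_left : S' ∩ Q ⊆ S'),
        Finset.sdiff_inter_self_left]
    have h5 : (S' ∩ Q).card ≤ ∑ v ∈ S' ∩ Q, h0 v := by
      rw [Finset.card_eq_sum_ones]
      exact Finset.sum_le_sum fun v hv =>
        htw v (hQ v (Finset.mem_inter.1 hv).2) (Pl v) (hPl v (Finset.mem_inter.1 hv).1)
    have h6 : (Q ∩ S').card = (S' ∩ Q).card := by rw [Finset.inter_comm]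
    have h7 := hΛ.2
    have hdim' : Module.finrank (ResidueField 𝒪) X + ∑ v ∈ S', h0 v + 1 ≤
        Module.finrank (ResidueField 𝒪) D := hdim
    omega
  · obtain ⟨w, hw, hcw⟩ := hW c (hsel' c hc)
    obtain ⟨u, hu, c', hc', hcob⟩ := hU (c - w) hcw
    obtain ⟨x, hx, hcob'⟩ := hX c' hc'
    refine ⟨w + u + x, Submodule.add_mem _ (Submodule.add_mem _
      (Submodule.mem_sup_left (Submodule.mem_sup_left hw))
      (Submodule.mem_sup_left (Submodule.mem_sup_right hu)))
      (Submodule.mem_sup_right hx), ?_⟩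
    have := hcob.add ρbar hcob'
    rwa [show c - w - u - c' + (c' - x) = c - (w + u + x) by abel] at this

/-- `REC-Q-BIG ⇒ REC-Q` (take `S' = Smin`). -/
theorem recQ_of_recQBig_aux (hSmin : Smin ⊆ S) (hS : ∀ q ∈ S, q.Prime)
    (hr : RecQBig 𝒪 p ρbar S Smin) : RecQ 𝒪 p ρbar S Smin := by
  classical
  intro Pl hPl D hD hDur Q hQ hK
  have hQS : ∀ q ∈ Q, q ∉ Smin := fun q hq h => (hQ q hq).2.1 (hSmin h)
  obtain ⟨U, hUfin, hUdim, hU⟩ :=
    hr Smin (Finset.Subset.refl _) (fun q hq => hS q (hSmin hq)) Pl hPl D hD hDur Q hQ hK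
  have h1 : Q ∩ Smin = ∅ := by
    rw [Finset.eq_empty_iff_forall_notMem]
    intro q hq
    exact hQS q (Finset.mem_inter.1 hq).1 (Finset.mem_inter.1 hq).2
  have h2 : Smin \ Q = Smin := by
    rw [Finset.sdiff_eq_self_iff_disjoint, Finset.disjoint_left]
    exact fun q hq hQ' => hQS q hQ' hq
  rw [h1, Finset.card_empty, add_zero] at hUdim
  rw [h2] at hU
  exact ⟨U, hUfin, hUdim, hU⟩

end

/-- (GW-WALL) through a bigger set `S'`. -/
theorem gwWall_of_big (hb : BaseBigStatement) (hr : RecQBigStatement) (hur : UrCountStatement)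
    (htw : TWInvStatement) : GWWallStatement :=
  fun 𝒪 _ _ _ _ _ p ρbar S Smin hyp =>
    gwWall_of_baseBig_recQBig 𝒪 p ρbar S Smin hyp.hSmin (hb 𝒪 p ρbar S Smin hyp)
      (hr 𝒪 p ρbar S Smin hyp) (hur 𝒪 p ρbar S Smin hyp) (htw 𝒪 p ρbar S Smin hyp)

/-- `REC-Q-BIG ⇒ REC-Q`. -/
theorem recQ_of_recQBig (hr : RecQBigStatement) : RecQStatement :=
  fun 𝒪 _ _ _ _ _ p ρbar S Smin hyp =>
    recQ_of_recQBig_aux 𝒪 p ρbar S Smin hyp.hSmin hyp.hS (hr 𝒪 p ρbar S Smin hyp)

/-- (TB-ord) of layer 0 through a bigger set `S'`. -/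
theorem tangentBoundOrd_of_big (hdict : DictOrdStatement) (hmin : LocMinStatement)
    (hord : LocOrdPStatement) (hb : BaseBigStatement) (hr : RecQBigStatement)
    (hur : UrCountStatement) (htw : TWInvStatement) : TangentBoundOrdStatement :=
  tangentBoundOrd_of_leaves hdict hmin hord (gwWall_of_big hb hr hur htw)

/-- (TB-flat) of layer 0 through a bigger set `S'`. -/
theorem tangentBoundFlat_of_big (hdict : DictFlatStatement) (hmin : LocMinStatement)
    (hflat : LocFlatPStatement) (hb : BaseBigStatement) (hr : RecQBigStatement)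
    (hur : UrCountStatement) (htw : TWInvStatement) : TangentBoundFlatStatement :=
  tangentBoundFlat_of_leaves hdict hmin hflat (gwWall_of_big hb hr hur htw)

end Fermat.Agent.S56.H716

end
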