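import Fermat.Agent.S56.H716.GWSpec4
import Fermat.Agent.S56.H716.GWGlue3
import Fermat.Agent.S56.Glue

/-!
# Row S56 — layer 3d: glue of ROUTE C (deputy helper716)

* `hyp_mono`            : `Hyp 𝒪 p ρbar S Smin → S ⊆ S'' → Hyp 𝒪 p ρbar S'' Smin`
* `gwWall_of_base_sub`  : `Base(S') + RecQ(S, S') + UR-COUNT ⇒ GW-WALL(S, Smin)` for `Smin ⊆ S' ⊆ S`
* `recQ_of_recQSub`     : `RecQSubStatement → RecQStatement`
* `tangentBoundSup_of`  : (TB) for `S ∪ S₀` from the leaves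
* `result_of_leaves`    : the frozen statement S56 from the leaves of route C.
-/

set_option autoImplicit false

open Polynomial IsLocalRing

noncomputable section

namespace Fermat.Agent.S56.H716

open Fermat.Agent.S56

section

variable (𝒪 : Type) [CommRing 𝒪] [IsDomain 𝒪] [IsDiscreteValuationRing 𝒪]
  (p : ℕ) (ρbar : ResidualGaloisRep (ResidueField 𝒪)) (S Smin : Finset ℕ)

/-- The standing hypotheses pass to a bigger set of primes `S''`. -/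
theorem hyp_mono {S'' : Finset ℕ} (h : Hyp 𝒪 p ρbar S Smin) (hS : S ⊆ S'')
    (hprime : ∀ q ∈ S'', q.Prime) : Hyp 𝒪 p ρbar S'' Smin :=
  ⟨h.hp, h.hp2, h.hp𝒪, h.habs, h.hdet, h.hsplit, h.hTW, h.hpSmin, h.hSmin.trans hS, hprime,
    h.hmin⟩

/-- **Glue** `GW-WALL(S, Smin) ⇐ BASE(S') + REC-Q(S, S') + UR-COUNT` for `Smin ⊆ S' ⊆ S`. -/
theorem gwWall_of_base_sub (S' : Finset ℕ) (hSS' : Smin ⊆ S') (hS'S : S' ⊆ S)
    (hS'prime : ∀ q ∈ S', q.Prime)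
    (hb : Base 𝒪 p ρbar S') (hr : RecQ 𝒪 p ρbar S S')
    (hur : ∀ v : ℕ, v.Prime → v ∉ Smin → ∀ P : ValuationSubring Qb, P.LiesOverPrime v →
      ∃ Λ : Submodule (ResidueField 𝒪) (GQ → Module.End (ResidueField 𝒪) ρbar.V),
        Module.Finite (ResidueField 𝒪) Λ ∧
        Module.finrank (ResidueField 𝒪) Λ ≤
          Module.finrank (ResidueField 𝒪) (adInv ρbar (P.decompositionSubgroup ℚ)) ∧
        ∀ c, IsAdCocycle ρbar c → UnramAt ρbar c v →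
          ∃ t ∈ Λ, IsAdCoboundaryOn ρbar (P.decompositionSubgroup ℚ) (c - t)) :
    GWWall 𝒪 p ρbar S Smin := by
  classical
  obtain ⟨Pl, hPl, D, X, hD, hDur, hXfin, hX, hdim⟩ := hb
  refine ⟨Pl, fun v hv => hPl v (hSS' hv), fun Λ δ hΛ => ⟨D, hD, fun Q hQ hK => ?_⟩⟩
  obtain ⟨U, hUfin, hUdim, hU⟩ := hr Pl hPl D hD hDur Q hQ hK
  have hQS : ∀ q ∈ Q, q ∉ S' := fun q hq h => (hQ q hq).2.1 (hS'S h)
  -- the local spaces on `S'`
  let Λ' : ℕ → Submodule (ResidueField 𝒪) (GQ → Module.End (ResidueField 𝒪) ρbar.V) :=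
    fun v => if h : v ∈ Smin then Λ v else
      if h' : v ∈ S' then (hur v (hS'prime v h') h (Pl v) (hPl v h')).choose else ⊥
  have hΛ'1 : ∀ v, v ∈ Smin → Λ' v = Λ v := fun v h => dif_pos h
  have hΛ'2 : ∀ v (h : v ∉ Smin) (h' : v ∈ S'),
      Λ' v = (hur v (hS'prime v h') h (Pl v) (hPl v h')).choose := fun v h h' => by
    simp only [Λ', dif_neg h, dif_pos h']
  let h0 : ℕ → ℕ := fun v =>
    Module.finrank (ResidueField 𝒪) (adInv ρbar ((Pl v).decompositionSubgroup ℚ))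
  let dd : ℕ → ℕ := fun v => if v ∈ Smin then δ v else 0
  have hfin' : ∀ v ∈ S', Module.Finite (ResidueField 𝒪) (Λ' v) := by
    intro v hvS'
    by_cases h : v ∈ Smin
    · rw [hΛ'1 v h]
      exact (hΛ.1 v h).1
    · rw [hΛ'2 v h hvS']
      exact (hur v (hS'prime v hvS') h (Pl v) (hPl v hvS')).choose_spec.1
  have hbound' : ∀ v ∈ S', Module.finrank (ResidueField 𝒪) (Λ' v) ≤ h0 v + dd v := by
    intro v hvS'
    by_cases h : v ∈ Smin
    · rw [hΛ'1 v h]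
      simpa [dd, h0, h] using (hΛ.1 v h).2
    · rw [hΛ'2 v h hvS']
      simpa [dd, h0, h] using
        (hur v (hS'prime v hvS') h (Pl v) (hPl v hvS')).choose_spec.2.1
  have hsel' : ∀ c, IsSelCocycle ρbar Pl Λ Smin Q c → IsSelCocycle ρbar Pl Λ' S' Q c := by
    intro c hc
    refine ⟨hc.cocycle, fun q hq hqn => hc.unram q hq fun hq' => hqn ?_, fun v hvS' => ?_⟩
    · rcases Finset.mem_union.1 hq' with h | h
      · exact Finset.mem_union_left _ (hSS' h)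
      · exact Finset.mem_union_right _ h
    · by_cases h : v ∈ Smin
      · rw [hΛ'1 v h]
        exact hc.loc v h
      · rw [hΛ'2 v h hvS']
        refine (hur v (hS'prime v hvS') h (Pl v) (hPl v hvS')).choose_spec.2.2 c hc.cocycle
          (hc.unram v (hS'prime v hvS') fun hv' => ?_)
        rcases Finset.mem_union.1 hv' with h1 | h1
        · exact h h1
        · exact hQS v h1 hvS'
  obtain ⟨W, hWfin, hWdim, hW⟩ := exists_local_lift ρbar Pl Λ' S' Q hfin'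
  have := hXfin
  have := hUfin
  have := hWfin
  refine ⟨W ⊔ U ⊔ X, inferInstance, ?_, fun c hc => ?_⟩
  · have h1 : Module.finrank (ResidueField 𝒪) ↥(W ⊔ U ⊔ X) ≤
        Module.finrank (ResidueField 𝒪) W + Module.finrank (ResidueField 𝒪) U +
          Module.finrank (ResidueField 𝒪) X :=
      (Submodule.finrank_add_le_finrank_add_finrank (W ⊔ U) X).trans
        (Nat.add_le_add_right (Submodule.finrank_add_le_finrank_add_finrank W U) _)
    have h2 : ∑ v ∈ S', Module.finrank (ResidueField 𝒪) (Λ' v) ≤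
        ∑ v ∈ S', h0 v + ∑ v ∈ S', dd v := by
      rw [← Finset.sum_add_distrib]
      exact Finset.sum_le_sum hbound'
    have h3 : ∑ v ∈ S', dd v = ∑ v ∈ Smin, δ v := by
      rw [← Finset.sum_subset hSS' (f := dd) fun v _ hv => by simp [dd, hv]]
      exact Finset.sum_congr rfl fun v hv => by simp [dd, hv]
    have h7 := hΛ.2
    have hdim' : Module.finrank (ResidueField 𝒪) X + ∑ v ∈ S', h0 v + 1 ≤
        Module.finrank (ResidueField 𝒪) D := hdim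
    omega
  · obtain ⟨w, hw, hcw⟩ := hW c (hsel' c hc)
    obtain ⟨u, hu, c', hc', hcob⟩ := hU (c - w) hcw
    obtain ⟨x, hx, hcob'⟩ := hX c' hc'
    refine ⟨w + u + x, Submodule.add_mem _ (Submodule.add_mem _
      (Submodule.mem_sup_left (Submodule.mem_sup_left hw))
      (Submodule.mem_sup_left (Submodule.mem_sup_right hu)))
      (Submodule.mem_sup_right hx), ?_⟩
    have := hcob.add ρbar hcob'
    rwa [show c - w - u - c' + (c' - x) = c - (w + u + x) by abel] at this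

end

/-- `REC-Q-SUB ⇒ REC-Q` (take `S' = Smin`). -/
theorem recQ_of_recQSub (hr : RecQSubStatement) : RecQStatement :=
  fun 𝒪 _ _ _ _ _ p ρbar S Smin hyp =>
    hr 𝒪 p ρbar S Smin hyp Smin (Finset.Subset.refl _) hyp.hSmin

section

variable (𝒪 : Type) [CommRing 𝒪] [IsDomain 𝒪] [IsDiscreteValuationRing 𝒪]
  [IsAdicComplete (maximalIdeal 𝒪) 𝒪] [Finite (ResidueField 𝒪)]
  (p : ℕ) (ρbar : ResidualGaloisRep (ResidueField 𝒪)) (S Smin : Finset ℕ)

/-- (GW-WALL) for `S ∪ S₀`, `S₀` the big set of (BASE-BIG). -/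
theorem exists_gwWall_sup (hb : BaseBigStatement) (hr : RecQSubStatement)
    (hur : UrCountStatement) (hyp : Hyp 𝒪 p ρbar S Smin) :
    ∃ S'' : Finset ℕ, S ⊆ S'' ∧ (∀ q ∈ S'', q.Prime) ∧ GWWall 𝒪 p ρbar S'' Smin := by
  classical
  obtain ⟨S₀, hS₀, hS₀prime, hbase⟩ := hb 𝒪 p ρbar S Smin hyp
  have hprime : ∀ q ∈ S ∪ S₀, q.Prime := fun q hq => by
    rcases Finset.mem_union.1 hq with h | h
    · exact hyp.hS q h
    · exact hS₀prime q h
  have hyp'' : Hyp 𝒪 p ρbar (S ∪ S₀) Smin :=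
    hyp_mono 𝒪 p ρbar S Smin hyp Finset.subset_union_left hprime
  exact ⟨S ∪ S₀, Finset.subset_union_left, hprime,
    gwWall_of_base_sub 𝒪 p ρbar (S ∪ S₀) Smin S₀ hS₀ Finset.subset_union_right hS₀prime hbase
      (hr 𝒪 p ρbar (S ∪ S₀) Smin hyp'' S₀ hS₀ Finset.subset_union_right)
      (hur 𝒪 p ρbar (S ∪ S₀) Smin hyp'')⟩

/-- (TB-ord) for some `S'' ⊇ S` from the leaves of route C. -/
theorem tangentBoundSupOrd_of (hdict : DictOrdStatement) (hmin : LocMinStatement)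
    (hord : LocOrdPStatement) (hb : BaseBigStatement) (hr : RecQSubStatement)
    (hur : UrCountStatement) (hyp : Hyp 𝒪 p ρbar S Smin) :
    TangentBoundSup 𝒪 p ρbar S (ordCond 𝒪 p Smin) := by
  obtain ⟨S'', hSS'', hprime, hw⟩ := exists_gwWall_sup 𝒪 p ρbar S Smin hb hr hur hyp
  have hyp'' : Hyp 𝒪 p ρbar S'' Smin := hyp_mono 𝒪 p ρbar S Smin hyp hSS'' hprime
  exact ⟨S'', hSS'', hprime,
    tangentBound_of_dict_selBound 𝒪 p ρbar S'' (ordCond 𝒪 p Smin) (hdict 𝒪 p ρbar S'' Smin hyp'')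
      (selBound_of_loc_gwWall 𝒪 p ρbar S'' Smin (ordCond 𝒪 p Smin)
        (locOrd_of hmin hord 𝒪 p ρbar S'' Smin hyp'') hw)⟩

/-- (TB-flat) for some `S'' ⊇ S` from the leaves of route C. -/
theorem tangentBoundSupFlat_of (hdict : DictFlatStatement) (hmin : LocMinStatement)
    (hflat : LocFlatPStatement) (hb : BaseBigStatement) (hr : RecQSubStatement)
    (hur : UrCountStatement) (hyp : Hyp 𝒪 p ρbar S Smin) :
    TangentBoundSup 𝒪 p ρbar S (flatCond 𝒪 p Smin) := by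
  obtain ⟨S'', hSS'', hprime, hw⟩ := exists_gwWall_sup 𝒪 p ρbar S Smin hb hr hur hyp
  have hyp'' : Hyp 𝒪 p ρbar S'' Smin := hyp_mono 𝒪 p ρbar S Smin hyp hSS'' hprime
  exact ⟨S'', hSS'', hprime,
    tangentBound_of_dict_selBound 𝒪 p ρbar S'' (flatCond 𝒪 p Smin)
      (hdict 𝒪 p ρbar S'' Smin hyp'')
      (selBound_of_loc_gwWall 𝒪 p ρbar S'' Smin (flatCond 𝒪 p Smin)
        (locFlat_of hmin hflat 𝒪 p ρbar S'' Smin hyp'') hw)⟩

/-- One half of S56 from (TB) for some `S'' ⊇ S`. -/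
theorem half_of_sup (hP1 : PowerSeriesSurjStatement) (hTWP : TWPrimesStatement)
    (hyp : Hyp 𝒪 p ρbar S Smin) (cond : Finset ℕ → DefCond 𝒪)
    (hTB : TangentBoundSup 𝒪 p ρbar S cond) :
    ∃ r : ℕ, ∀ n : ℕ, ∃ qv : Fin r → ℕ, Function.Injective qv ∧
      (∀ i, (qv i).Prime ∧ qv i ∉ S ∧ p ^ (n + 1) ∣ qv i - 1) ∧
      (∀ i, ∀ P : ValuationSubring (AlgebraicClosure ℚ), P.LiesOverPrime (qv i) →
        ∀ φ : AlgebraicClosure ℚ ≃ₐ[ℚ] AlgebraicClosure ℚ, P.IsFrobeniusAt φ (qv i) →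
          ∃ α β : ResidueField 𝒪, α ≠ β ∧
            LinearMap.charpoly (ρbar.ρ φ) = (X - C α) * (X - C β)) ∧
      ∀ DQ : GaloisRep.DeformationRingData 𝒪 ρbar (cond (Finset.univ.image qv)),
        ∃ γ : MvPowerSeries (Fin r) 𝒪 →ₐ[𝒪] DQ.R, Function.Surjective γ := by
  obtain ⟨S'', hSS'', hprime, hTB''⟩ := hTB
  obtain ⟨r, hr⟩ := half_of_inputs hP1 hTWP p ρbar S'' Smin
    (hyp_mono 𝒪 p ρbar S Smin hyp hSS'' hprime) cond hTB''
  refine ⟨r, fun n => ?_⟩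
  obtain ⟨qv, hinj, hq, hfrob, hDQ⟩ := hr n
  exact ⟨qv, hinj, fun i => ⟨(hq i).1, fun h => (hq i).2.1 (hSS'' h), (hq i).2.2⟩, hfrob, hDQ⟩

end

/-- **S56 from the leaves of route C.** -/
theorem result_of_leaves (hdo : DictOrdStatement) (hdf : DictFlatStatement)
    (hmin : LocMinStatement) (hord : LocOrdPStatement) (hflat : LocFlatPStatement)
    (hb : BaseBigStatement) (hr : RecQSubStatement) (hur : UrCountStatement)
    (hP1 : PowerSeriesSurjStatement) (hTWP : TWPrimesStatement)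
    {𝒪 : Type} [CommRing 𝒪] [IsDomain 𝒪] [IsDiscreteValuationRing 𝒪]
    [IsAdicComplete (maximalIdeal 𝒪) 𝒪] [Finite (ResidueField 𝒪)]
    (p : ℕ) [Fact p.Prime] (hp2 : p ≠ 2) (hp𝒪 : (p : 𝒪) ∈ maximalIdeal 𝒪)
    (ρbar : ResidualGaloisRep (ResidueField 𝒪))
    (habs : ρbar.IsAbsolutelyIrreducible)
    (hdet : (GaloisRepAdic.ofResidualGaloisRep ρbar).DetIsCyclotomic p)
    (hsplit : ∀ σ : AlgebraicClosure ℚ ≃ₐ[ℚ] AlgebraicClosure ℚ,
      ∃ α β : ResidueField 𝒪, LinearMap.charpoly (ρbar.ρ σ) = (X - C α) * (X - C β))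
    (hTW : ∀ (K : Type) [Field K] [Algebra (ResidueField 𝒪) K]
      (G : Subgroup (AlgebraicClosure ℚ ≃ₐ[ℚ] AlgebraicClosure ℚ)), G.index = 2 →
      ∀ V : Submodule K (ρbar.baseChange K).V,
        (∀ σ ∈ G, ∀ x ∈ V, (ρbar.baseChange K).ρ σ x ∈ V) → V = ⊥ ∨ V = ⊤)
    (S Smin : Finset ℕ) (hpSmin : p ∈ Smin) (hSmin : Smin ⊆ S) (hS : ∀ q ∈ S, q.Prime)
    (hmin' : ∀ q : ℕ, q.Prime → q ≠ p → (q ∈ Smin ↔ ¬ ρbar.IsUnramifiedAt q)) :
    (∃ r : ℕ, ∀ n : ℕ, ∃ qv : Fin r → ℕ, Function.Injective qv ∧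
      (∀ i, (qv i).Prime ∧ qv i ∉ S ∧ p ^ (n + 1) ∣ qv i - 1) ∧
      (∀ i, ∀ P : ValuationSubring (AlgebraicClosure ℚ), P.LiesOverPrime (qv i) →
        ∀ φ : AlgebraicClosure ℚ ≃ₐ[ℚ] AlgebraicClosure ℚ, P.IsFrobeniusAt φ (qv i) →
          ∃ α β : ResidueField 𝒪, α ≠ β ∧ LinearMap.charpoly (ρbar.ρ φ) = (X - C α) * (X - C β)) ∧
      ∀ DQ : GaloisRep.DeformationRingData 𝒪 ρbar (fun _A _ _ _ ρ =>
          GaloisRep.strictOrdinaryCondition 𝒪 p (Smin ∪ Finset.univ.image qv) ρ ∧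
            ∀ q ∈ Smin, q.Prime → q ≠ p → ρ.IsUnipotentOnInertiaAt q),
        ∃ γ : MvPowerSeries (Fin r) 𝒪 →ₐ[𝒪] DQ.R, Function.Surjective γ) ∧
    (∃ r : ℕ, ∀ n : ℕ, ∃ qv : Fin r → ℕ, Function.Injective qv ∧
      (∀ i, (qv i).Prime ∧ qv i ∉ S ∧ p ^ (n + 1) ∣ qv i - 1) ∧
      (∀ i, ∀ P : ValuationSubring (AlgebraicClosure ℚ), P.LiesOverPrime (qv i) →
        ∀ φ : AlgebraicClosure ℚ ≃ₐ[ℚ] AlgebraicClosure ℚ, P.IsFrobeniusAt φ (qv i) →
          ∃ α β : ResidueField 𝒪, α ≠ β ∧ LinearMap.charpoly (ρbar.ρ φ) = (X - C α) * (X - C β)) ∧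
      ∀ DQ : GaloisRep.DeformationRingData 𝒪 ρbar (fun _A _ _ _ ρ =>
          GaloisRep.flatCondition 𝒪 p (Smin ∪ Finset.univ.image qv) ρ ∧
            ∀ q ∈ Smin, q.Prime → q ≠ p → ρ.IsUnipotentOnInertiaAt q),
        ∃ γ : MvPowerSeries (Fin r) 𝒪 →ₐ[𝒪] DQ.R, Function.Surjective γ) := by
  have H : Hyp 𝒪 p ρbar S Smin :=
    ⟨Fact.out, hp2, hp𝒪, habs, hdet, hsplit, hTW, hpSmin, hSmin, hS, hmin'⟩
  exact ⟨half_of_sup 𝒪 p ρbar S Smin hP1 hTWP H (ordCond 𝒪 p Smin)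
      (tangentBoundSupOrd_of 𝒪 p ρbar S Smin hdo hmin hord hb hr hur H),
    half_of_sup 𝒪 p ρbar S Smin hP1 hTWP H (flatCond 𝒪 p Smin)
      (tangentBoundSupFlat_of 𝒪 p ρbar S Smin hdf hmin hflat hb hr hur H)⟩

end Fermat.Agent.S56.H716

end
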