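import Fermat.Agent.S56.Spec

/-!
# Row S56 — tangent bound (TB), layer 1: FROZEN definitions (deputy helper716)

Same conventions as the frozen layer 0 (`Fermat/Agent/S56/Defs.lean`): cocycles are plain functions
`c : G_ℚ → End_k V`, `V = ρbar.V`.

* `IsAdCocycle ρbar c`   — `c ∈ Z¹(G_ℚ, ad⁰ρ̄)` (UNTWISTED): `tr c(σ) = 0`,
  `c(στ) = c(σ) + ρ̄(σ) c(τ) ρ̄(σ)⁻¹`, finite level.
* `IsAdCoboundary ρbar c` — `c(σ) = ρ̄(σ) m ρ̄(σ)⁻¹ − m` for some `m`.
* `liftEnd ρbar c σ`     — the endomorphism `(1 + ε c(σ)) ρ̄(σ)` of `k[ε] ⊗ V`.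
* `IsLiftOf ρbar c ρ'`   — `ρ' : GaloisRepAdic k[ε]` is isomorphic to `σ ↦ liftEnd ρbar c σ`.
* `IsTanCocycle 𝒪 ρbar 𝒟 c` — `c` is an ad⁰-cocycle whose lift to `k[ε]` is of type `𝒟`
  (for the `𝒪`-algebra structure `tanAlgebra 𝒪` on `k[ε]`).

Nothing unproved in this file.  Plan: `coord/S56-TB.md` on `origin/helper716`.
-/

set_option autoImplicit false

open Polynomial IsLocalRing
open scoped TensorProduct

noncomputable section

namespace Fermat.Agent.S56.H716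

open Fermat.Agent.S56

section Cocycles

variable {k : Type} [Field k] (ρbar : ResidualGaloisRep k)

/-- `c` is an (untwisted) cocycle with values in trace-zero endomorphisms, of finite level. -/
structure IsAdCocycle (c : GQ → Module.End k ρbar.V) : Prop where
  trace_eq_zero : ∀ σ, LinearMap.trace k ρbar.V (c σ) = 0
  map_mul : ∀ σ τ, c (σ * τ) = c σ + ρbar.ρ σ * c τ * ρbar.ρ σ⁻¹
  level : ∃ L : IntermediateField ℚ Qb, FiniteDimensional ℚ L ∧
    ∀ σ τ : GQ, (∀ x ∈ L, τ x = x) → c (σ * τ) = c σ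

/-- `c` is the (untwisted) coboundary of some endomorphism `m`. -/
def IsAdCoboundary (c : GQ → Module.End k ρbar.V) : Prop :=
  ∃ m : Module.End k ρbar.V, ∀ σ, c σ = ρbar.ρ σ * m * ρbar.ρ σ⁻¹ - m

/-- The endomorphism `(1 + ε c(σ)) ρ̄(σ)` of `k[ε] ⊗_k V`. -/
def liftEnd (c : GQ → Module.End k ρbar.V) (σ : GQ) :
    Module.End (DualNumber k) (DualNumber k ⊗[k] ρbar.V) :=
  (ρbar.ρ σ).baseChange (DualNumber k) +
    (DualNumber.eps : DualNumber k) • (c σ * ρbar.ρ σ).baseChange (DualNumber k)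

/-- `ρ'` is (isomorphic to) the lift `σ ↦ (1 + ε c(σ)) ρ̄(σ)` of `ρ̄` to the dual numbers. -/
def IsLiftOf (c : GQ → Module.End k ρbar.V) (ρ' : GaloisRepAdic (DualNumber k)) : Prop :=
  ∃ e : ρ'.V ≃ₗ[DualNumber k] (DualNumber k ⊗[k] ρbar.V),
    ∀ (σ : GQ) (v : ρ'.V), e (ρ'.ρ σ v) = liftEnd ρbar c σ (e v)

end Cocycles

section Tan

variable (𝒪 : Type) [CommRing 𝒪] [IsLocalRing 𝒪]
  (ρbar : ResidualGaloisRep (ResidueField 𝒪))

/-- `c` is an ad⁰-cocycle whose lift to the dual numbers is a deformation of type `𝒟`. -/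
def IsTanCocycle (𝒟 : DefCond 𝒪) (c : GQ → Module.End (ResidueField 𝒪) ρbar.V) : Prop :=
  IsAdCocycle ρbar c ∧
    ∃ ρ' : GaloisRepAdic (DualNumber (ResidueField 𝒪)),
      IsLiftOf ρbar c ρ' ∧ @𝒟 (DualNumber (ResidueField 𝒪)) _ _ (tanAlgebra 𝒪) ρ'

end Tan

end Fermat.Agent.S56.H716

end
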