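import Fermat.Agent.S56.H716.TBSpec

/-!
# Row S56 — tangent bound (TB), layer 1: glue `TB ⇐ DICT + SELBOUND` (deputy helper716)

* `tangentBound_of_dict_selBound` : `(∀ Q, Dict (cond Q)) → SelBound cond → TangentBound cond`
* `tangentBoundOrd_of`  : `DictOrdStatement → SelBoundOrdStatement → TangentBoundOrdStatement`
* `tangentBoundFlat_of` : `DictFlatStatement → SelBoundFlatStatement → TangentBoundFlatStatement`
-/

set_option autoImplicit false

open Polynomial IsLocalRing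

noncomputable section

namespace Fermat.Agent.S56.H716

open Fermat.Agent.S56

section

variable {k : Type} [Field k] (ρbar : ResidualGaloisRep k)

lemma IsAdCoboundary.sub {c c' : GQ → Module.End k ρbar.V} (h : IsAdCoboundary ρbar c)
    (h' : IsAdCoboundary ρbar c') : IsAdCoboundary ρbar (c - c') := by
  obtain ⟨m, hm⟩ := h
  obtain ⟨m', hm'⟩ := h'
  refine ⟨m - m', fun σ => ?_⟩
  rw [Pi.sub_apply, hm σ, hm' σ, mul_sub, sub_mul]
  abel

end

variable (𝒪 : Type) [CommRing 𝒪] [IsDomain 𝒪] [IsDiscreteValuationRing 𝒪]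
  [IsAdicComplete (maximalIdeal 𝒪) 𝒪] [Finite (ResidueField 𝒪)]
  (p : ℕ) (ρbar : ResidualGaloisRep (ResidueField 𝒪)) (S : Finset ℕ)

/-- **Glue** `TB ⇐ DICT + SELBOUND`. -/
theorem tangentBound_of_dict_selBound (cond : Finset ℕ → DefCond 𝒪)
    (hdict : ∀ Q : Finset ℕ, Dict 𝒪 ρbar (cond Q)) (hsel : SelBound 𝒪 p ρbar S cond) :
    TangentBound 𝒪 p ρbar S cond := by
  obtain ⟨D, hD, h⟩ := hsel
  refine ⟨D, hD, fun Q hQ hK DQ => ?_⟩
  obtain ⟨T, hTfin, hTle, hT⟩ := h Q hQ hK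
  obtain ⟨f, hf, hinj⟩ := hdict Q DQ
  have hT' : ∀ φ, ∃ t ∈ T, IsAdCoboundary ρbar (f φ - t) := by
    intro φ
    rcases hf φ with h1 | h0
    · exact hT (f φ) h1
    · exact ⟨0, T.zero_mem, 0, fun σ => by simp [h0]⟩
  choose t ht htc using hT'
  let g : TanHom 𝒪 DQ.R → T := fun φ => ⟨t φ, ht φ⟩
  have hg : Function.Injective g := by
    intro φ φ' hφ
    have ht' : t φ = t φ' := congrArg Subtype.val hφ
    refine hinj φ φ' ?_
    have h1 := (htc φ).sub ρbar (htc φ')
    have h2 : f φ - t φ - (f φ' - t φ') = f φ - f φ' := by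
      rw [ht']
      abel
    rwa [h2] at h1
  have : Module.Finite (ResidueField 𝒪) T := hTfin
  have : Finite T := Module.finite_of_finite (ResidueField 𝒪)
  have : Finite (TanHom 𝒪 DQ.R) := Finite.of_injective g hg
  refine ⟨inferInstance, ?_⟩
  calc Nat.card (TanHom 𝒪 DQ.R) ≤ Nat.card T := Nat.card_le_card_of_injective g hg
    _ = Nat.card (ResidueField 𝒪) ^ Module.finrank (ResidueField 𝒪) T :=
        Module.natCard_eq_pow_finrank
    _ ≤ Nat.card (ResidueField 𝒪) ^ Q.card :=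
        Nat.pow_le_pow_right Nat.card_pos hTle

end Fermat.Agent.S56.H716

namespace Fermat.Agent.S56.H716

open Fermat.Agent.S56

/-- (TB-ord) from (DICT-ord) and (SELBOUND-ord). -/
theorem tangentBoundOrd_of (hdict : DictOrdStatement) (hsel : SelBoundOrdStatement) :
    TangentBoundOrdStatement :=
  fun 𝒪 _ _ _ _ _ p ρbar S Smin hyp =>
    tangentBound_of_dict_selBound 𝒪 p ρbar S (ordCond 𝒪 p Smin)
      (hdict 𝒪 p ρbar S Smin hyp) (hsel 𝒪 p ρbar S Smin hyp)

/-- (TB-flat) from (DICT-flat) and (SELBOUND-flat). -/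
theorem tangentBoundFlat_of (hdict : DictFlatStatement) (hsel : SelBoundFlatStatement) :
    TangentBoundFlatStatement :=
  fun 𝒪 _ _ _ _ _ p ρbar S Smin hyp =>
    tangentBound_of_dict_selBound 𝒪 p ρbar S (flatCond 𝒪 p Smin)
      (hdict 𝒪 p ρbar S Smin hyp) (hsel 𝒪 p ρbar S Smin hyp)

end Fermat.Agent.S56.H716

end
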