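import Fermat.Agent.S56.H716.SBSpec
import Fermat.Agent.S56.H716.TBGlue

/-!
# Row S56 — SELBOUND, layer 2: glue (deputy helper716)

* `unramAt_of_isLiftOf` (LOC-UR): a lift unramified at `q` has a cocycle vanishing on inertia.
* `loc_of_local`        : `LOC(cond)` from one `LocalBoundAt` per place of `Smin`.
* `locOrd_of`   : `LocMinStatement → LocOrdPStatement → LocOrdStatement`
* `locFlat_of`  : `LocMinStatement → LocFlatPStatement → LocFlatStatement`
* `selBoundOrd_of`  : `LocOrdStatement → GWWallStatement → SelBoundOrdStatement`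
* `selBoundFlat_of` : `LocFlatStatement → GWWallStatement → SelBoundFlatStatement`
* `tangentBoundOrd_of_leaves`, `tangentBoundFlat_of_leaves`: the two (TB) statements of layer 0
  from the leaves `DICT`, `LOC-MIN`, `LOC-SO` / `LOC-FLAT` and the wall `GW-WALL`.
-/

set_option autoImplicit false

open Polynomial IsLocalRing
open scoped TensorProduct

noncomputable section

namespace Fermat.Agent.S56.H716

open Fermat.Agent.S56

section

variable {k : Type} [Field k] (ρbar : ResidualGaloisRep k)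

/-- If the lift `(1 + ε c(σ)) ρ̄(σ)` is the identity, then `c(σ) = 0`. -/
lemma eq_zero_of_liftEnd_eq_one {c : GQ → Module.End k ρbar.V} {σ : GQ}
    (h : liftEnd ρbar c σ = 1) : c σ = 0 := by
  have hinv : ρbar.ρ σ * ρbar.ρ σ⁻¹ = 1 := by rw [← map_mul, mul_inv_cancel, map_one]
  have key : ∀ w : ρbar.V, c σ (ρbar.ρ σ w) = 0 := by
    intro w
    have h1 := congrArg (fun f => f ((1 : DualNumber k) ⊗ₜ[k] w)) h
    simp only [liftEnd, LinearMap.add_apply, LinearMap.smul_apply, LinearMap.baseChange_tmul,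
      Module.End.one_apply, Module.End.mul_apply, TensorProduct.smul_tmul', smul_eq_mul,
      mul_one] at h1
    have h2 := congrArg (fun x => TensorProduct.lid k ρbar.V
      ((TrivSqZeroExt.sndHom k k).rTensor ρbar.V x)) h1
    simpa using h2
  ext w
  have h3 := key (ρbar.ρ σ⁻¹ w)
  have h4 : ρbar.ρ σ (ρbar.ρ σ⁻¹ w) = w := by
    rw [← Module.End.mul_apply, hinv, Module.End.one_apply]
  rw [h4] at h3
  simpa using h3

/-- (LOC-UR) The cocycle of a lift which is unramified at `q` vanishes on inertia at `q`. -/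
lemma unramAt_of_isLiftOf {c : GQ → Module.End k ρbar.V} {ρ' : GaloisRepAdic (DualNumber k)}
    (hl : IsLiftOf ρbar c ρ') {q : ℕ} (hu : ρ'.IsUnramifiedAt q) : UnramAt ρbar c q := by
  obtain ⟨e, he⟩ := hl
  intro P hP σ hσ
  apply eq_zero_of_liftEnd_eq_one
  refine LinearMap.ext fun x => ?_
  obtain ⟨v, rfl⟩ := e.surjective x
  rw [← he σ v, hu P hP σ hσ, Module.End.one_apply, Module.End.one_apply]

end

section

variable (𝒪 : Type) [CommRing 𝒪] [IsDomain 𝒪] [IsDiscreteValuationRing 𝒪]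
  (p : ℕ) (ρbar : ResidualGaloisRep (ResidueField 𝒪)) (S Smin : Finset ℕ)

/-- `LOC(cond)` from one local bound per place of `Smin`. -/
theorem loc_of_local (cond : Finset ℕ → DefCond 𝒪)
    (Ty : ℕ → GaloisRepAdic (DualNumber (ResidueField 𝒪)) → Prop) (d : ℕ → ℕ)
    (hd : ∑ v ∈ Smin, d v ≤ 1)
    (hloc : ∀ v ∈ Smin, ∀ P : ValuationSubring Qb, P.LiesOverPrime v →
      LocalBoundAt ρbar P (Ty v) (d v))
    (hTy : ∀ (Q : Finset ℕ) (ρ' : GaloisRepAdic (DualNumber (ResidueField 𝒪))),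
      @cond Q (DualNumber (ResidueField 𝒪)) _ _ (tanAlgebra 𝒪) ρ' →
        (∀ v ∈ Smin, Ty v ρ') ∧ ∀ q : ℕ, q.Prime → q ∉ Smin ∪ Q → ρ'.IsUnramifiedAt q) :
    Loc 𝒪 p ρbar S Smin cond := by
  classical
  intro Pl hPl
  let Λ : ℕ → Submodule (ResidueField 𝒪) (GQ → Module.End (ResidueField 𝒪) ρbar.V) :=
    fun v => if h : v ∈ Smin then (hloc v h (Pl v) (hPl v h)).choose else ⊥
  have hΛ : ∀ v (h : v ∈ Smin), Λ v = (hloc v h (Pl v) (hPl v h)).choose := fun v h => dif_pos h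
  refine ⟨Λ, d, ⟨fun v hv => ?_, hd⟩, fun Q _ c hc => ?_⟩
  · rw [hΛ v hv]
    exact ⟨(hloc v hv (Pl v) (hPl v hv)).choose_spec.1,
      (hloc v hv (Pl v) (hPl v hv)).choose_spec.2.1⟩
  · obtain ⟨hcoc, ρ', hl, hcond⟩ := hc
    obtain ⟨hT, hur⟩ := hTy Q ρ' hcond
    refine ⟨hcoc, fun q hq hqn => unramAt_of_isLiftOf ρbar hl (hur q hq hqn), fun v hv => ?_⟩
    rw [hΛ v hv]
    exact (hloc v hv (Pl v) (hPl v hv)).choose_spec.2.2 c hcoc ⟨ρ', hl, hT v hv⟩

/-- `SELBOUND(cond) ⇐ LOC(cond) + GW-WALL`. -/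
theorem selBound_of_loc_gwWall (cond : Finset ℕ → DefCond 𝒪)
    (hloc : Loc 𝒪 p ρbar S Smin cond) (hw : GWWall 𝒪 p ρbar S Smin) :
    SelBound 𝒪 p ρbar S cond := by
  obtain ⟨Pl, hPl, hW⟩ := hw
  obtain ⟨Λ, δ, hb, hsel⟩ := hloc Pl hPl
  obtain ⟨D, hD, h⟩ := hW Λ δ hb
  refine ⟨D, hD, fun Q hQ hK => ?_⟩
  obtain ⟨T, hT1, hT2, hT3⟩ := h Q hQ hK
  exact ⟨T, hT1, hT2, fun c hc => hT3 c (hsel Q hQ c hc)⟩

end

/-- The sum of the defects `1` at `p` and `0` elsewhere. -/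
lemma sum_defect_le_one (p : ℕ) (Smin : Finset ℕ) :
    ∑ v ∈ Smin, (if v = p then 1 else 0 : ℕ) ≤ 1 := by
  classical
  rw [Finset.sum_ite_eq' Smin p (fun _ => (1 : ℕ))]
  split_ifs <;> simp

/-- (LOC-ord) from the local leaves (LOC-MIN) and (LOC-SO). -/
theorem locOrd_of (hmin : LocMinStatement) (hord : LocOrdPStatement) : LocOrdStatement := by
  classical
  intro 𝒪 _ _ _ _ _ p ρbar S Smin hyp
  refine loc_of_local 𝒪 p ρbar S Smin (ordCond 𝒪 p Smin)
    (fun v ρ' => if v = p then ρ'.DetIsCyclotomic p ∧ ρ'.IsStrictOrdinaryAt p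
      else ρ'.DetIsCyclotomic p ∧ ρ'.IsUnipotentOnInertiaAt v)
    (fun v => if v = p then 1 else 0) (sum_defect_le_one p Smin) ?_ ?_
  · intro v hv P hP
    by_cases hvp : v = p
    · subst hvp
      simpa using hord 𝒪 v ρbar S Smin hyp P hP
    · simpa [hvp] using hmin 𝒪 p ρbar S Smin hyp v hv hvp P hP
  · rintro Q ρ' ⟨⟨hdet, hso, hur⟩, huni⟩
    refine ⟨fun v hv => ?_, hur⟩
    by_cases hvp : v = p
    · simp only [hvp, if_true]
      exact ⟨hdet, hso⟩
    · simp only [hvp, if_false]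
      exact ⟨hdet, huni v hv (hyp.hS v (hyp.hSmin hv)) hvp⟩

/-- (LOC-flat) from the local leaves (LOC-MIN) and (LOC-FLAT). -/
theorem locFlat_of (hmin : LocMinStatement) (hflat : LocFlatPStatement) : LocFlatStatement := by
  classical
  intro 𝒪 _ _ _ _ _ p ρbar S Smin hyp
  refine loc_of_local 𝒪 p ρbar S Smin (flatCond 𝒪 p Smin)
    (fun v ρ' => if v = p then ρ'.DetIsCyclotomic p ∧ ρ'.IsFlatAt p
      else ρ'.DetIsCyclotomic p ∧ ρ'.IsUnipotentOnInertiaAt v)
    (fun v => if v = p then 1 else 0) (sum_defect_le_one p Smin) ?_ ?_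
  · intro v hv P hP
    by_cases hvp : v = p
    · subst hvp
      simpa using hflat 𝒪 v ρbar S Smin hyp P hP
    · simpa [hvp] using hmin 𝒪 p ρbar S Smin hyp v hv hvp P hP
  · rintro Q ρ' ⟨⟨hdet, hfl, hur⟩, huni⟩
    refine ⟨fun v hv => ?_, hur⟩
    by_cases hvp : v = p
    · simp only [hvp, if_true]
      exact ⟨hdet, hfl⟩
    · simp only [hvp, if_false]
      exact ⟨hdet, huni v hv (hyp.hS v (hyp.hSmin hv)) hvp⟩

/-- (SELBOUND-ord) from (LOC-ord) and the wall. -/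
theorem selBoundOrd_of (hloc : LocOrdStatement) (hw : GWWallStatement) : SelBoundOrdStatement :=
  fun 𝒪 _ _ _ _ _ p ρbar S Smin hyp =>
    selBound_of_loc_gwWall 𝒪 p ρbar S Smin (ordCond 𝒪 p Smin)
      (hloc 𝒪 p ρbar S Smin hyp) (hw 𝒪 p ρbar S Smin hyp)

/-- (SELBOUND-flat) from (LOC-flat) and the wall. -/
theorem selBoundFlat_of (hloc : LocFlatStatement) (hw : GWWallStatement) :
    SelBoundFlatStatement :=
  fun 𝒪 _ _ _ _ _ p ρbar S Smin hyp =>
    selBound_of_loc_gwWall 𝒪 p ρbar S Smin (flatCond 𝒪 p Smin)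
      (hloc 𝒪 p ρbar S Smin hyp) (hw 𝒪 p ρbar S Smin hyp)

/-- (TB-ord) of layer 0 from the leaves. -/
theorem tangentBoundOrd_of_leaves (hdict : DictOrdStatement) (hmin : LocMinStatement)
    (hord : LocOrdPStatement) (hw : GWWallStatement) : TangentBoundOrdStatement :=
  tangentBoundOrd_of hdict (selBoundOrd_of (locOrd_of hmin hord) hw)

/-- (TB-flat) of layer 0 from the leaves. -/
theorem tangentBoundFlat_of_leaves (hdict : DictFlatStatement) (hmin : LocMinStatement)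
    (hflat : LocFlatPStatement) (hw : GWWallStatement) : TangentBoundFlatStatement :=
  tangentBoundFlat_of hdict (selBoundFlat_of (locFlat_of hmin hflat) hw)

end Fermat.Agent.S56.H716

end
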