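import Fermat.Agent.S56.H716.GWSpec
import Fermat.Agent.S56.H716.SBGlue

/-!
# Row S56 — the wall GW-WALL, layer 3: glue `GW-WALL ⇐ BASE + REC-Q` (deputy helper716)

Pure linear algebra:

* `exists_local_lift`: the Selmer cocycles of `(Λ, Q)` modulo the strict ones are spanned by a
  space `W` with `dim W ≤ ∑_{v ∈ Smin} dim Λ v`;
* `gwWall_of_base_recQ : Base → RecQ → GWWall`;
* `gwWall_of : BaseStatement → RecQStatement → GWWallStatement`;
* `tangentBoundOrd_of_walls`, `tangentBoundFlat_of_walls`: the two (TB) statements of layer 0 from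
  `DICT`, `LOC-MIN`, `LOC-SO` / `LOC-FLAT`, `BASE`, `REC-Q`.
-/

set_option autoImplicit false

open Polynomial IsLocalRing

noncomputable section

namespace Fermat.Agent.S56.H716

open Fermat.Agent.S56

/-- A linear relation `R ≤ E × T` with `T` finite-dimensional: modulo `{e | (e, 0) ∈ R}` the
first projection of `R` is spanned by a space of dimension `≤ dim T`. -/
theorem exists_lift_of_rel {k E T : Type*} [Field k] [AddCommGroup E]
    [Module k E] [AddCommGroup T] [Module k T] [Module.Finite k T]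
    (R : Submodule k (E × T)) :
    ∃ W : Submodule k E, Module.Finite k W ∧ Module.finrank k W ≤ Module.finrank k T ∧
      ∀ x ∈ R, ∃ w ∈ W, ((x.1 - w, 0) : E × T) ∈ R := by
  classical
  let f₁ : ↥R →ₗ[k] E := (LinearMap.fst k E T).comp R.subtype
  let f₂ : ↥R →ₗ[k] T := (LinearMap.snd k E T).comp R.subtype
  obtain ⟨C, hC⟩ := Submodule.exists_isCompl (LinearMap.ker f₂)
  have hinj : Function.Injective (f₂.comp C.subtype) := by
    refine (injective_iff_map_eq_zero _).2 fun c hc => ?_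
    have h1 : (c : ↥R) ∈ LinearMap.ker f₂ := hc
    have h2 : (c : ↥R) ∈ LinearMap.ker f₂ ⊓ C := ⟨h1, c.2⟩
    rw [hC.inf_eq_bot] at h2
    exact Subtype.ext ((Submodule.mem_bot k).1 h2)
  have hCfin : Module.Finite k ↥C := Module.Finite.of_injective _ hinj
  refine ⟨C.map f₁, inferInstance, ?_, ?_⟩
  · calc Module.finrank k ↥(C.map f₁) ≤ Module.finrank k ↥C := Submodule.finrank_map_le f₁ C
      _ ≤ Module.finrank k T := LinearMap.finrank_le_finrank_of_injective hinj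
  · intro x hx
    have hx' : (⟨x, hx⟩ : ↥R) ∈ LinearMap.ker f₂ ⊔ C := by rw [hC.sup_eq_top]; trivial
    obtain ⟨r₀, hr₀, rc, hrc, hsum⟩ := Submodule.mem_sup.1 hx'
    refine ⟨f₁ rc, Submodule.mem_map_of_mem hrc, ?_⟩
    have h0 : f₂ r₀ = 0 := hr₀
    have e : ((x.1 - f₁ rc, 0) : E × T) = (r₀ : E × T) := by
      have h3 : (r₀ : E × T) + (rc : E × T) = x := congrArg Subtype.val hsum
      have h4 : (r₀ : E × T).2 = 0 := h0
      refine Prod.ext ?_ h4.symm
      show x.1 - (rc : E × T).1 = (r₀ : E × T).1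
      rw [← h3]
      simp
    rw [e]
    exact r₀.2

section Closure

variable {k : Type} [Field k] (ρbar : ResidualGaloisRep k)

lemma IsAdCoboundary.add {c c' : GQ → Module.End k ρbar.V} (h : IsAdCoboundary ρbar c)
    (h' : IsAdCoboundary ρbar c') : IsAdCoboundary ρbar (c + c') := by
  obtain ⟨m, hm⟩ := h
  obtain ⟨m', hm'⟩ := h'
  refine ⟨m + m', fun σ => ?_⟩
  rw [Pi.add_apply, hm σ, hm' σ, mul_add, add_mul]
  abel

lemma IsAdCoboundaryOn.zero (H : Subgroup GQ) :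
    IsAdCoboundaryOn ρbar H (0 : GQ → Module.End k ρbar.V) :=
  ⟨0, fun σ _ => by simp⟩

lemma IsAdCoboundaryOn.add {H : Subgroup GQ} {c c' : GQ → Module.End k ρbar.V}
    (h : IsAdCoboundaryOn ρbar H c) (h' : IsAdCoboundaryOn ρbar H c') :
    IsAdCoboundaryOn ρbar H (c + c') := by
  obtain ⟨m, hm⟩ := h
  obtain ⟨m', hm'⟩ := h'
  refine ⟨m + m', fun σ hσ => ?_⟩
  rw [Pi.add_apply, hm σ hσ, hm' σ hσ, mul_add, add_mul]
  abel

lemma IsAdCoboundaryOn.smul {H : Subgroup GQ} {c : GQ → Module.End k ρbar.V} (a : k)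
    (h : IsAdCoboundaryOn ρbar H c) : IsAdCoboundaryOn ρbar H (a • c) := by
  obtain ⟨m, hm⟩ := h
  refine ⟨a • m, fun σ hσ => ?_⟩
  rw [Pi.smul_apply, hm σ hσ, mul_smul_comm, smul_mul_assoc, smul_sub]

lemma IsAdCoboundaryOn.sub {H : Subgroup GQ} {c c' : GQ → Module.End k ρbar.V}
    (h : IsAdCoboundaryOn ρbar H c) (h' : IsAdCoboundaryOn ρbar H c') :
    IsAdCoboundaryOn ρbar H (c - c') := by
  have := h.add ρbar (h'.smul ρbar (-1))
  simpa [sub_eq_add_neg] using this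

lemma IsAdCocycle.zero : IsAdCocycle ρbar (0 : GQ → Module.End k ρbar.V) where
  trace_eq_zero σ := by simp
  map_mul σ τ := by simp
  level := ⟨⊥, inferInstance, fun _ _ _ => rfl⟩

lemma IsAdCocycle.add {c c' : GQ → Module.End k ρbar.V} (h : IsAdCocycle ρbar c)
    (h' : IsAdCocycle ρbar c') : IsAdCocycle ρbar (c + c') where
  trace_eq_zero σ := by rw [Pi.add_apply, map_add, h.trace_eq_zero, h'.trace_eq_zero, add_zero]
  map_mul σ τ := by
    simp only [Pi.add_apply]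
    rw [h.map_mul, h'.map_mul, mul_add, add_mul]
    abel
  level := by
    obtain ⟨L, hL, hLc⟩ := h.level
    obtain ⟨L', hL', hLc'⟩ := h'.level
    refine ⟨L ⊔ L', inferInstance, fun σ τ hτ => ?_⟩
    simp only [Pi.add_apply]
    rw [hLc σ τ fun x hx => hτ x ((le_sup_left : L ≤ L ⊔ L') hx),
      hLc' σ τ fun x hx => hτ x ((le_sup_right : L' ≤ L ⊔ L') hx)]

lemma IsAdCocycle.smul {c : GQ → Module.End k ρbar.V} (a : k) (h : IsAdCocycle ρbar c) :
    IsAdCocycle ρbar (a • c) where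
  trace_eq_zero σ := by rw [Pi.smul_apply, map_smul, h.trace_eq_zero, smul_zero]
  map_mul σ τ := by
    simp only [Pi.smul_apply]
    rw [h.map_mul, smul_add, mul_smul_comm, smul_mul_assoc]
  level := by
    obtain ⟨L, hL, hLc⟩ := h.level
    exact ⟨L, hL, fun σ τ hτ => by simp only [Pi.smul_apply]; rw [hLc σ τ hτ]⟩

lemma IsAdCocycle.sub {c c' : GQ → Module.End k ρbar.V} (h : IsAdCocycle ρbar c)
    (h' : IsAdCocycle ρbar c') : IsAdCocycle ρbar (c - c') := by
  have := h.add ρbar (h'.smul ρbar (-1))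
  simpa [sub_eq_add_neg] using this

lemma UnramAt.add {c c' : GQ → Module.End k ρbar.V} {q : ℕ} (h : UnramAt ρbar c q)
    (h' : UnramAt ρbar c' q) : UnramAt ρbar (c + c') q := fun P hP σ hσ => by
  rw [Pi.add_apply, h P hP σ hσ, h' P hP σ hσ, add_zero]

lemma UnramAt.smul {c : GQ → Module.End k ρbar.V} {q : ℕ} (a : k) (h : UnramAt ρbar c q) :
    UnramAt ρbar (a • c) q := fun P hP σ hσ => by
  rw [Pi.smul_apply, h P hP σ hσ, smul_zero]

lemma UnramAt.zero (q : ℕ) : UnramAt ρbar (0 : GQ → Module.End k ρbar.V) q :=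
  fun _ _ _ _ => rfl

variable (Pl : ℕ → ValuationSubring Qb)
  (Λ : ℕ → Submodule k (GQ → Module.End k ρbar.V)) (Smin Q : Finset ℕ)

lemma IsSelCocycle.zero : IsSelCocycle ρbar Pl Λ Smin Q 0 where
  cocycle := IsAdCocycle.zero ρbar
  unram q _ _ := UnramAt.zero ρbar q
  loc v _ := ⟨0, (Λ v).zero_mem, by simpa using IsAdCoboundaryOn.zero ρbar _⟩

variable {Pl Λ Smin Q}

lemma IsSelCocycle.add {c c' : GQ → Module.End k ρbar.V}
    (h : IsSelCocycle ρbar Pl Λ Smin Q c) (h' : IsSelCocycle ρbar Pl Λ Smin Q c') :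
    IsSelCocycle ρbar Pl Λ Smin Q (c + c') where
  cocycle := h.cocycle.add ρbar h'.cocycle
  unram q hq hqn := (h.unram q hq hqn).add ρbar (h'.unram q hq hqn)
  loc v hv := by
    obtain ⟨t, ht, hc⟩ := h.loc v hv
    obtain ⟨t', ht', hc'⟩ := h'.loc v hv
    refine ⟨t + t', (Λ v).add_mem ht ht', ?_⟩
    have := hc.add ρbar hc'
    rwa [show c - t + (c' - t') = c + c' - (t + t') by abel] at this

lemma IsSelCocycle.smul {c : GQ → Module.End k ρbar.V} (a : k)
    (h : IsSelCocycle ρbar Pl Λ Smin Q c) : IsSelCocycle ρbar Pl Λ Smin Q (a • c) where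
  cocycle := h.cocycle.smul ρbar a
  unram q hq hqn := (h.unram q hq hqn).smul ρbar a
  loc v hv := by
    obtain ⟨t, ht, hc⟩ := h.loc v hv
    refine ⟨a • t, (Λ v).smul_mem a ht, ?_⟩
    have := hc.smul ρbar a
    rwa [smul_sub] at this

lemma IsSelCocycle.sub {c c' : GQ → Module.End k ρbar.V}
    (h : IsSelCocycle ρbar Pl Λ Smin Q c) (h' : IsSelCocycle ρbar Pl Λ Smin Q c') :
    IsSelCocycle ρbar Pl Λ Smin Q (c - c') := by
  have := h.add ρbar (h'.smul ρbar (-1))
  simpa [sub_eq_add_neg] using this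

/-- The relation "`c` is a Selmer cocycle and `t v` represents its local class at `v`",
as a submodule of `E × ∏_{v ∈ Smin} Λ v`. -/
def selRel (Pl : ℕ → ValuationSubring Qb)
    (Λ : ℕ → Submodule k (GQ → Module.End k ρbar.V)) (Smin Q : Finset ℕ) :
    Submodule k ((GQ → Module.End k ρbar.V) × ((v : ↥Smin) → ↥(Λ v.1))) where
  carrier := {x | IsSelCocycle ρbar Pl Λ Smin Q x.1 ∧
    ∀ v : ↥Smin, IsAdCoboundaryOn ρbar ((Pl v.1).decompositionSubgroup ℚ)
      (x.1 - ((x.2 v : ↥(Λ v.1)) : GQ → Module.End k ρbar.V))}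
  add_mem' := by
    rintro x y ⟨hx, hx'⟩ ⟨hy, hy'⟩
    refine ⟨hx.add ρbar hy, fun v => ?_⟩
    have := (hx' v).add ρbar (hy' v)
    simp only [Prod.fst_add, Prod.snd_add, Pi.add_apply, Submodule.coe_add]
    rwa [show x.1 - ((x.2 v : ↥(Λ v.1)) : GQ → Module.End k ρbar.V) +
      (y.1 - ((y.2 v : ↥(Λ v.1)) : GQ → Module.End k ρbar.V)) =
      x.1 + y.1 - (((x.2 v : ↥(Λ v.1)) : GQ → Module.End k ρbar.V) +
        ((y.2 v : ↥(Λ v.1)) : GQ → Module.End k ρbar.V)) by abel] at this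
  zero_mem' := by
    refine ⟨IsSelCocycle.zero ρbar Pl Λ Smin Q, fun v => ?_⟩
    simpa using IsAdCoboundaryOn.zero ρbar _
  smul_mem' := by
    rintro a x ⟨hx, hx'⟩
    refine ⟨hx.smul ρbar a, fun v => ?_⟩
    have := (hx' v).smul ρbar a
    simp only [Prod.smul_fst, Prod.smul_snd, Pi.smul_apply, Submodule.coe_smul]
    rwa [smul_sub] at this

/-- The Selmer cocycles of `(Λ, Q)` are spanned, modulo the strict Selmer cocycles, by a space of
dimension `≤ ∑_{v ∈ Smin} dim Λ v`. -/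
theorem exists_local_lift (Pl : ℕ → ValuationSubring Qb)
    (Λ : ℕ → Submodule k (GQ → Module.End k ρbar.V)) (Smin Q : Finset ℕ)
    (hfin : ∀ v ∈ Smin, Module.Finite k (Λ v)) :
    ∃ W : Submodule k (GQ → Module.End k ρbar.V), Module.Finite k W ∧
      Module.finrank k W ≤ ∑ v ∈ Smin, Module.finrank k (Λ v) ∧
      ∀ c, IsSelCocycle ρbar Pl Λ Smin Q c →
        ∃ w ∈ W, IsSelCocycle ρbar Pl (fun _ => ⊥) Smin Q (c - w) := by
  classical
  have hfin' : ∀ v : ↥Smin, Module.Finite k ↥(Λ v.1) := fun v => hfin v.1 v.2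
  obtain ⟨W, hWfin, hWdim, hW⟩ := exists_lift_of_rel (selRel ρbar Pl Λ Smin Q)
  refine ⟨W, hWfin, ?_, ?_⟩
  · calc Module.finrank k ↥W ≤ Module.finrank k ((v : ↥Smin) → ↥(Λ v.1)) := hWdim
      _ = ∑ v : ↥Smin, Module.finrank k ↥(Λ v.1) := Module.finrank_pi_fintype k
      _ = ∑ v ∈ Smin, Module.finrank k (Λ v) :=
          Finset.sum_coe_sort Smin fun v => Module.finrank k ↥(Λ v)
  · intro c hc
    choose t ht htc using hc.loc
    let tt : (v : ↥Smin) → ↥(Λ v.1) := fun v => ⟨t v.1 v.2, ht v.1 v.2⟩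
    have hmem : ((c, tt) : (GQ → Module.End k ρbar.V) × ((v : ↥Smin) → ↥(Λ v.1))) ∈
        selRel ρbar Pl Λ Smin Q := ⟨hc, fun v => htc v.1 v.2⟩
    obtain ⟨w, hw, hsel, hcob⟩ := hW _ hmem
    refine ⟨w, hw, hsel.cocycle, hsel.unram, fun v hv => ⟨0, Submodule.zero_mem _, ?_⟩⟩
    have := hcob ⟨v, hv⟩
    simpa using this

end Closure

section

variable (𝒪 : Type) [CommRing 𝒪] [IsDomain 𝒪] [IsDiscreteValuationRing 𝒪]
  (p : ℕ) (ρbar : ResidualGaloisRep (ResidueField 𝒪)) (S Smin : Finset ℕ)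

/-- **Glue** `GW-WALL ⇐ BASE + REC-Q`. -/
theorem gwWall_of_base_recQ (hb : Base 𝒪 p ρbar Smin) (hr : RecQ 𝒪 p ρbar S Smin) :
    GWWall 𝒪 p ρbar S Smin := by
  classical
  obtain ⟨Pl, hPl, D, X, hD, hDur, hXfin, hX, hdim⟩ := hb
  refine ⟨Pl, hPl, fun Λ δ hΛ => ⟨D, hD, fun Q hQ hK => ?_⟩⟩
  obtain ⟨U, hUfin, hUdim, hU⟩ := hr Pl hPl D hD hDur Q hQ hK
  obtain ⟨W, hWfin, hWdim, hW⟩ :=
    exists_local_lift ρbar Pl Λ Smin Q fun v hv => (hΛ.1 v hv).1
  have := hXfin
  have := hUfin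
  have := hWfin
  refine ⟨W ⊔ U ⊔ X, inferInstance, ?_, fun c hc => ?_⟩
  · have h1 : Module.finrank (ResidueField 𝒪) ↥(W ⊔ U ⊔ X) ≤
        Module.finrank (ResidueField 𝒪) W + Module.finrank (ResidueField 𝒪) U +
          Module.finrank (ResidueField 𝒪) X :=
      (Submodule.finrank_add_le_finrank_add_finrank (W ⊔ U) X).trans
        (Nat.add_le_add_right (Submodule.finrank_add_le_finrank_add_finrank W U) _)
    have h2 : ∑ v ∈ Smin, Module.finrank (ResidueField 𝒪) (Λ v) ≤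
        ∑ v ∈ Smin, Module.finrank (ResidueField 𝒪)
          (adInv ρbar ((Pl v).decompositionSubgroup ℚ)) + ∑ v ∈ Smin, δ v := by
      rw [← Finset.sum_add_distrib]
      exact Finset.sum_le_sum fun v hv => (hΛ.1 v hv).2
    have h3 := hΛ.2
    omega
  · obtain ⟨w, hw, hcw⟩ := hW c hc
    obtain ⟨u, hu, c', hc', hcob⟩ := hU (c - w) hcw
    obtain ⟨x, hx, hcob'⟩ := hX c' hc'
    refine ⟨w + u + x, Submodule.add_mem _ (Submodule.add_mem _
      (Submodule.mem_sup_left (Submodule.mem_sup_left hw))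
      (Submodule.mem_sup_left (Submodule.mem_sup_right hu)))
      (Submodule.mem_sup_right hx), ?_⟩
    have := hcob.add ρbar hcob'
    rwa [show c - w - u - c' + (c' - x) = c - (w + u + x) by abel] at this

end

/-- (GW-WALL) from (BASE) and (REC-Q). -/
theorem gwWall_of (hb : BaseStatement) (hr : RecQStatement) : GWWallStatement :=
  fun 𝒪 _ _ _ _ _ p ρbar S Smin hyp =>
    gwWall_of_base_recQ 𝒪 p ρbar S Smin (hb 𝒪 p ρbar S Smin hyp) (hr 𝒪 p ρbar S Smin hyp)

/-- (TB-ord) of layer 0 from the leaves and the two walls. -/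
theorem tangentBoundOrd_of_walls (hdict : DictOrdStatement) (hmin : LocMinStatement)
    (hord : LocOrdPStatement) (hb : BaseStatement) (hr : RecQStatement) :
    TangentBoundOrdStatement :=
  tangentBoundOrd_of_leaves hdict hmin hord (gwWall_of hb hr)

/-- (TB-flat) of layer 0 from the leaves and the two walls. -/
theorem tangentBoundFlat_of_walls (hdict : DictFlatStatement) (hmin : LocMinStatement)
    (hflat : LocFlatPStatement) (hb : BaseStatement) (hr : RecQStatement) :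
    TangentBoundFlatStatement :=
  tangentBoundFlat_of_leaves hdict hmin hflat (gwWall_of hb hr)

end Fermat.Agent.S56.H716

end
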