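import Fermat.Agent.S56.H716.GWSpec3

/-!
# Row S56 — the wall GW-WALL, layer 3d: ROUTE C (deputy helper716)

`S56  ⇐  DICT + LOC-MIN + LOC-SO + LOC-FLAT + BASE-BIG + REC-Q-SUB + UR-COUNT (+ P1 + TWP)`
(glue: `H716/GWGlue4.lean`)

The frozen statement S56 for `S` follows from its body for any finite set of primes `S'' ⊇ S`
(the Taylor–Wiles primes found outside `S''` are outside `S`).  So the whole machine is run for
`S'' := S ∪ S₀`, where `S₀ ⊇ Smin` is the big set of (BASE-BIG).  The Taylor–Wiles primes then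
AVOID `S₀`, and reciprocity is needed only in the form (REC-Q) with `Smin` replaced by `S₀`:

* `RecQSubStatement` (REC-Q-SUB): under `Hyp 𝒪 p ρbar S Smin`, for every `S'` with
  `Smin ⊆ S' ⊆ S`:  `RecQ 𝒪 p ρbar S S'`  — i.e. (REC-Q) where the strict conditions are imposed
  at the places of `S'` and "unramified" means outside `S' ∪ Q`.  SAME MATHEMATICS AND SAME PROOF
  as (REC-Q): the proof of (REC-Q) only uses that `ρ̄` is unramified outside `Smin ⊆ S'`, that
  `p ∈ S'` and that `Q ∩ S' = ∅`; the local spaces at `q ∈ Q` are lines.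
  For `S' = Smin` it is `RecQStatement`.

No comparison step (COMP), no local duality for planes, no (TW-INV).

Nothing unproved in this file.
-/

set_option autoImplicit false

open Polynomial IsLocalRing

noncomputable section

namespace Fermat.Agent.S56.H716

open Fermat.Agent.S56

/-- (REC-Q-SUB): reciprocity over the Taylor–Wiles primes, relative to any set `S'` of primes
with `Smin ⊆ S' ⊆ S`. -/
def RecQSubStatement : Prop :=
  ∀ (𝒪 : Type) [CommRing 𝒪] [IsDomain 𝒪] [IsDiscreteValuationRing 𝒪]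
    [IsAdicComplete (maximalIdeal 𝒪) 𝒪] [Finite (ResidueField 𝒪)]
    (p : ℕ) (ρbar : ResidualGaloisRep (ResidueField 𝒪)) (S Smin : Finset ℕ),
    Hyp 𝒪 p ρbar S Smin → ∀ S' : Finset ℕ, Smin ⊆ S' → S' ⊆ S → RecQ 𝒪 p ρbar S S'

/-- (TB) for some finite set of primes `S'' ⊇ S`. -/
def TangentBoundSup (𝒪 : Type) [CommRing 𝒪] [IsDomain 𝒪] [IsDiscreteValuationRing 𝒪]
    [IsAdicComplete (maximalIdeal 𝒪) 𝒪]
    (p : ℕ) (ρbar : ResidualGaloisRep (ResidueField 𝒪)) (S : Finset ℕ)
    (cond : Finset ℕ → DefCond 𝒪) : Prop :=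
  ∃ S'' : Finset ℕ, S ⊆ S'' ∧ (∀ q ∈ S'', q.Prime) ∧ TangentBound 𝒪 p ρbar S'' cond

end Fermat.Agent.S56.H716

end
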