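import Fermat.Agent.S56.H716.TBDefs

/-!
# Row S56 — tangent bound (TB), layer 1: FROZEN statements (deputy helper716)

`TB(cond)  ⇐  DICT(cond) + SELBOUND(cond)`     (glue: `H716/TBGlue.lean`, proved)

* `DictOrdStatement`, `DictFlatStatement` (DICT): for every universal ring `DQ` of type `cond Q`
  there is a map `f : Hom_𝒪(R_Q, k[ε]) → {functions G_ℚ → End_k V}` whose values are tangent cocycles
  of type `cond Q` (or the zero function: so the trivial tangent vector needs no base change along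
  the non-surjective map `R_Q → k → k[ε]`) and which is injective modulo coboundaries.
* `SelBoundOrdStatement`, `SelBoundFlatStatement` (SELBOUND = the cohomological wall): there is a
  dual Selmer frame `D` such that for every set `Q` of Taylor–Wiles primes killing `D`, all tangent
  cocycles of type `cond Q` lie, modulo coboundaries, in a `k`-space of cocycles of dimension
  `≤ #Q`.

Nothing unproved in this file.
-/

set_option autoImplicit false

open Polynomial IsLocalRing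

noncomputable section

namespace Fermat.Agent.S56.H716

open Fermat.Agent.S56

section

variable (𝒪 : Type) [CommRing 𝒪] [IsDomain 𝒪] [IsDiscreteValuationRing 𝒪]
  [IsAdicComplete (maximalIdeal 𝒪) 𝒪]
  (p : ℕ) (ρbar : ResidualGaloisRep (ResidueField 𝒪)) (S : Finset ℕ)

/-- (DICT) for one condition `𝒟` and one universal ring of type `𝒟`. -/
def Dict (𝒟 : DefCond 𝒪) : Prop :=
  ∀ DQ : GaloisRep.DeformationRingData 𝒪 ρbar 𝒟,
    ∃ f : TanHom 𝒪 DQ.R → (GQ → Module.End (ResidueField 𝒪) ρbar.V),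
      (∀ φ, IsTanCocycle 𝒪 ρbar 𝒟 (f φ) ∨ f φ = 0) ∧
      ∀ φ φ', IsAdCoboundary ρbar (f φ - f φ') → φ = φ'

/-- (SELBOUND) for a family of conditions indexed by the auxiliary set `Q`. -/
def SelBound (cond : Finset ℕ → DefCond 𝒪) : Prop :=
  ∃ D : Submodule (ResidueField 𝒪) (GQ → Module.End (ResidueField 𝒪) ρbar.V),
    IsDualFrame ρbar p D ∧
    ∀ Q : Finset ℕ, (∀ q ∈ Q, IsTWPrime ρbar p S q) → Kills ρbar p D Q →
      ∃ T : Submodule (ResidueField 𝒪) (GQ → Module.End (ResidueField 𝒪) ρbar.V),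
        Module.Finite (ResidueField 𝒪) T ∧ Module.finrank (ResidueField 𝒪) T ≤ Q.card ∧
        ∀ c, IsTanCocycle 𝒪 ρbar (cond Q) c → ∃ t ∈ T, IsAdCoboundary ρbar (c - t)

end

/-- (DICT-ord). -/
def DictOrdStatement : Prop :=
  ∀ (𝒪 : Type) [CommRing 𝒪] [IsDomain 𝒪] [IsDiscreteValuationRing 𝒪]
    [IsAdicComplete (maximalIdeal 𝒪) 𝒪] [Finite (ResidueField 𝒪)]
    (p : ℕ) (ρbar : ResidualGaloisRep (ResidueField 𝒪)) (S Smin : Finset ℕ),
    Hyp 𝒪 p ρbar S Smin → ∀ Q : Finset ℕ, Dict 𝒪 ρbar (ordCond 𝒪 p Smin Q)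

/-- (DICT-flat). -/
def DictFlatStatement : Prop :=
  ∀ (𝒪 : Type) [CommRing 𝒪] [IsDomain 𝒪] [IsDiscreteValuationRing 𝒪]
    [IsAdicComplete (maximalIdeal 𝒪) 𝒪] [Finite (ResidueField 𝒪)]
    (p : ℕ) (ρbar : ResidualGaloisRep (ResidueField 𝒪)) (S Smin : Finset ℕ),
    Hyp 𝒪 p ρbar S Smin → ∀ Q : Finset ℕ, Dict 𝒪 ρbar (flatCond 𝒪 p Smin Q)

/-- (SELBOUND-ord): the cohomological wall, strict-ordinary half. -/
def SelBoundOrdStatement : Prop :=
  ∀ (𝒪 : Type) [CommRing 𝒪] [IsDomain 𝒪] [IsDiscreteValuationRing 𝒪]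
    [IsAdicComplete (maximalIdeal 𝒪) 𝒪] [Finite (ResidueField 𝒪)]
    (p : ℕ) (ρbar : ResidualGaloisRep (ResidueField 𝒪)) (S Smin : Finset ℕ),
    Hyp 𝒪 p ρbar S Smin → SelBound 𝒪 p ρbar S (ordCond 𝒪 p Smin)

/-- (SELBOUND-flat): the cohomological wall, flat half. -/
def SelBoundFlatStatement : Prop :=
  ∀ (𝒪 : Type) [CommRing 𝒪] [IsDomain 𝒪] [IsDiscreteValuationRing 𝒪]
    [IsAdicComplete (maximalIdeal 𝒪) 𝒪] [Finite (ResidueField 𝒪)]
    (p : ℕ) (ρbar : ResidualGaloisRep (ResidueField 𝒪)) (S Smin : Finset ℕ),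
    Hyp 𝒪 p ρbar S Smin → SelBound 𝒪 p ρbar S (flatCond 𝒪 p Smin)

end Fermat.Agent.S56.H716

end
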